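/-
DELTA / (D5) PEU (helper4), part 0: finite sums in the `QVal` calculus and the valuation of
`ζ ^ m - 1` for a primitive `p`-th root of unity (`ord p = 1`): it is `1 / (p - 1)`.
-/
import Mathlib
import Fermat.Agent.Lib.S05.QVal

set_option autoImplicit false
set_option linter.unusedSectionVars false
set_option linter.unusedVariables false

namespace Fermat.Agent.Delta

open Fermat.Agent.S05Lib

section Sums

variable {K : Type*} [Field K] {v : QVal K}

lemma dlp_ge_sum {ι : Type*} (s : Finset ι) (f : ι → K) (t : ℚ)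
    (h : ∀ i ∈ s, v.Ge (f i) t) : v.Ge (∑ i ∈ s, f i) t := by
  classical
  induction s using Finset.induction_on with
  | empty => rw [Finset.sum_empty]; exact QVal.ge_zero'
  | insert i s his ih =>
    rw [Finset.sum_insert his]
    exact (h i (Finset.mem_insert_self i s)).add (ih fun j hj => h j (Finset.mem_insert_of_mem hj))

lemma dlp_gt_sum {ι : Type*} (s : Finset ι) (f : ι → K) (t : ℚ)
    (h : ∀ i ∈ s, v.Gt (f i) t) : v.Gt (∑ i ∈ s, f i) t := by
  classical
  induction s using Finset.induction_on with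
  | empty => rw [Finset.sum_empty]; exact QVal.gt_zero'
  | insert i s his ih =>
    rw [Finset.sum_insert his]
    exact (h i (Finset.mem_insert_self i s)).add (ih fun j hj => h j (Finset.mem_insert_of_mem hj))

/-- a finite sum whose nonzero terms have pairwise distinct orders: the order of the sum is the
minimum, attained exactly once -/
lemma dlp_sum_distinct {ι : Type*} [DecidableEq ι] (s : Finset ι) (f : ι → K)
    (hd : ∀ i ∈ s, ∀ j ∈ s, i ≠ j → f i ≠ 0 → f j ≠ 0 → v.ord (f i) ≠ v.ord (f j))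
    (hne : ∃ i ∈ s, f i ≠ 0) :
    ∃ m ∈ s, f m ≠ 0 ∧ v.Is (∑ i ∈ s, f i) (v.ord (f m)) ∧
      ∀ i ∈ s, i ≠ m → v.Gt (f i) (v.ord (f m)) := by
  classical
  set s' := s.filter fun i => f i ≠ 0 with hs'
  have hs'ne : s'.Nonempty := by
    obtain ⟨i, hi, hfi⟩ := hne
    exact ⟨i, Finset.mem_filter.mpr ⟨hi, hfi⟩⟩
  obtain ⟨m, hm, hmin⟩ := Finset.exists_min_image s' (fun i => v.ord (f i)) hs'ne
  obtain ⟨hms, hfm⟩ := Finset.mem_filter.mp hm
  have hgt : ∀ i ∈ s, i ≠ m → v.Gt (f i) (v.ord (f m)) := by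
    intro i hi him
    by_cases hfi : f i = 0
    · exact Or.inl hfi
    · right
      have h1 := hmin i (Finset.mem_filter.mpr ⟨hi, hfi⟩)
      exact lt_of_le_of_ne h1 (fun h => hd i hi m hms him hfi hfm h.symm)
  refine ⟨m, hms, hfm, ?_, hgt⟩
  rw [← Finset.add_sum_erase s f hms]
  refine (QVal.is_ord hfm).add_gt (dlp_gt_sum _ _ _ ?_)
  intro i hi
  exact hgt i (Finset.mem_of_mem_erase hi) (Finset.ne_of_mem_erase hi)

/-- `ord` of a product of nonzero elements -/
lemma dlp_ord_prod {ι : Type*} (s : Finset ι) (f : ι → K) (hf : ∀ i ∈ s, f i ≠ 0) :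
    v.ord (∏ i ∈ s, f i) = ∑ i ∈ s, v.ord (f i) := by
  classical
  induction s using Finset.induction_on with
  | empty => simp [v.ord_one]
  | insert i s his ih =>
    rw [Finset.prod_insert his, Finset.sum_insert his]
    have h1 : f i ≠ 0 := hf i (Finset.mem_insert_self i s)
    have h2 : ∏ j ∈ s, f j ≠ 0 := Finset.prod_ne_zero_iff.mpr
      (fun j hj => hf j (Finset.mem_insert_of_mem hj))
    rw [v.ord_mul' h1 h2, ih (fun j hj => hf j (Finset.mem_insert_of_mem hj))]

end Sums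

section Cyclo

variable {K : Type*} [Field K] {v : QVal K}

/-- a root of unity is a unit -/
lemma dlp_is_of_pow_eq_one {ζ : K} {n : ℕ} (hn : n ≠ 0) (hζ : ζ ^ n = 1) : v.Is ζ 0 := by
  have hζ0 : ζ ≠ 0 := by
    intro h0
    rw [h0, zero_pow hn] at hζ
    exact zero_ne_one hζ
  refine ⟨hζ0, ?_⟩
  have h1 := v.ord_pow hζ0 n
  rw [hζ, v.ord_one] at h1
  have hn' : (n : ℚ) ≠ 0 := by exact_mod_cast hn
  rcases mul_eq_zero.mp h1.symm with h | h
  · exact absurd h hn'
  · exact h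

/-- `ζ ^ m - 1` is a multiple of `ζ - 1` by an integral element -/
lemma dlp_ge_pow_sub_one {ζ : K} (hζ : v.Is ζ 0) {x : K} {t : ℚ} (hx : v.Ge (ζ - 1) t)
    (m : ℕ) : v.Ge (ζ ^ m - 1) t := by
  rw [← geom_sum_mul ζ m]
  have h1 : v.Ge (∑ i ∈ Finset.range m, ζ ^ i) 0 := by
    refine dlp_ge_sum _ _ _ fun i _ => ?_
    have := (hζ.pow i).ge
    rwa [mul_zero] at this
  have := h1.mul hx
  rwa [zero_add] at this

/-- **the valuation of `ζ ^ m - 1`** for a primitive `p`-th root of unity, `p` prime, `ord p = 1`,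
`p ∤ m` -/
theorem dlp_is_zeta_pow_sub_one {p : ℕ} (hp : p.Prime) {ζ : K} (hζ : IsPrimitiveRoot ζ p)
    (hp1 : v.Is (p : K) 1) {m : ℕ} (hm : ¬ p ∣ m) :
    v.Is (ζ ^ m - 1) (1 / ((p : ℚ) - 1)) := by
  have hζ1 : v.Is ζ 0 := dlp_is_of_pow_eq_one hp.ne_zero hζ.pow_eq_one
  have hp2 : (1 : ℚ) < p := by exact_mod_cast hp.one_lt
  have hpq : (p : ℚ) - 1 ≠ 0 := by linarith
  -- all the `ζ ^ k - 1`, `p ∤ k`, have the same order as `ζ - 1`
  have hne : ∀ k : ℕ, ¬ p ∣ k → ζ ^ k - 1 ≠ 0 := by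
    intro k hk h0
    exact hk ((hζ.pow_eq_one_iff_dvd k).mp (sub_eq_zero.mp h0))
  have h1ne : ζ - 1 ≠ 0 := by
    have := hne 1 (fun h => hp.one_lt.ne' (Nat.dvd_one.mp h))
    rwa [pow_one] at this
  have hsame : ∀ k : ℕ, ¬ p ∣ k → v.ord (ζ ^ k - 1) = v.ord (ζ - 1) := by
    intro k hk
    apply le_antisymm
    · -- `ζ - 1 = (ζ ^ k) ^ k' - 1` is a multiple of `ζ ^ k - 1`
      have hcop : Nat.Coprime k p := ((Nat.Prime.coprime_iff_not_dvd hp).mpr hk).symm
      obtain ⟨k', -, hk'⟩ := Nat.exists_mul_mod_eq_one_of_coprime hcop hp.one_lt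
      have hpow : (ζ ^ k) ^ k' = ζ := by
        rw [← pow_mul]
        conv_lhs => rw [← Nat.div_add_mod (k * k') p, pow_add, pow_mul, hζ.pow_eq_one, one_pow,
          one_mul, hk', pow_one]
      have hζk : v.Is (ζ ^ k) 0 := by
        have := hζ1.pow k
        rwa [mul_zero] at this
      have h2 := dlp_ge_pow_sub_one (x := ζ) hζk (QVal.is_ord (hne k hk)).ge k'
      rw [hpow] at h2
      exact h2.resolve_left h1ne
    · have h2 := dlp_ge_pow_sub_one (x := ζ) hζ1 (QVal.is_ord h1ne).ge k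
      exact h2.resolve_left (hne k hk)
  -- the product formula
  obtain ⟨n, rfl⟩ : ∃ n, p = n + 1 := ⟨p - 1, (Nat.succ_pred_eq_of_pos hp.pos).symm⟩
  have hprod := hζ.prod_one_sub_pow_eq_order
  have hfac : ∀ k ∈ Finset.range n, v.Is (1 - ζ ^ (k + 1)) (v.ord (ζ - 1)) := by
    intro k hk
    have hk' : ¬ (n + 1) ∣ (k + 1) := by
      intro hdvd
      have := Nat.le_of_dvd (Nat.succ_pos k) hdvd
      have := Finset.mem_range.mp hk
      omega
    have h3 : v.Is (ζ ^ (k + 1) - 1) (v.ord (ζ - 1)) := ⟨hne _ hk', hsame _ hk'⟩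
    have := h3.neg
    rwa [neg_sub] at this
  have hord : v.ord (∏ k ∈ Finset.range n, (1 - ζ ^ (k + 1))) = n * v.ord (ζ - 1) := by
    have hne' : ∀ k ∈ Finset.range n, (1 - ζ ^ (k + 1)) ≠ 0 := fun k hk => (hfac k hk).1
    have := dlp_ord_prod (v := v) (Finset.range n) (fun k => 1 - ζ ^ (k + 1)) hne'
    rw [this, Finset.sum_congr rfl (fun k hk => (hfac k hk).2), Finset.sum_const,
      Finset.card_range, nsmul_eq_mul]
  rw [hprod] at hord
  have hp1' : v.ord ((n : K) + 1) = 1 := by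
    have := hp1.2
    push_cast at this
    exact this
  rw [hp1'] at hord
  refine ⟨hne m hm, ?_⟩
  rw [hsame m hm]
  push_cast
  have hn0 : (n : ℚ) ≠ 0 := by
    push_cast at hpq
    intro h0
    apply hpq
    rw [h0]; ring
  have e1 : ((n : ℚ) + 1 - 1) = n := by ring
  rw [e1, eq_div_iff hn0]
  linarith

end Cyclo

end Fermat.Agent.Delta
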