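/-
DELTA / (D5) PEU (helper4), part 2: **equidistance** on `y² = x³ + a x² + b x`.

`v` a `ℚ`-valued valuation with `ord 2 = 0`, `a` integral.

* `dlp_equi` : if `P = (x₁, y₁)` has `ord x₁ = ord y₁ = α ≥ 0`, `ord b ≥ α`, and `Q = (x₂, y₂)` lies
  in the kernel of reduction, `ord x₂ = -2δ < 0`, then `ord (x(P ± Q) - x₁) = α + δ`;
* `dlp_is_y_of_torsion` : for the node `ord a = 0`, `ord b = h > 0`, an odd-torsion point `(x, y)`
  with `0 ≤ ord x = α < h` has `ord y = α`;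
* `dlp_lt_of_torsion` : an odd-torsion point with integral abscissa has `ord x < h`, and
  `n · ord x ∈ 2 h ℤ`.
-/
import Mathlib
import Fermat.Agent.Lib.S05.Node
import Fermat.Agent.Lib.S05.ClosePoints
import Fermat.Agent.Lib.S13.AtP2
import Fermat.Agent.Lib.Delta.Peu.Sums

set_option autoImplicit false
set_option linter.unusedSectionVars false
set_option linter.unusedVariables false

open WeierstrassCurve WeierstrassCurve.Affine

namespace Fermat.Agent.Delta

open Fermat.Agent.S05Lib Fermat.Agent.S13Lib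

section

variable {K : Type*} [Field K] [DecidableEq K] {v : QVal K} {W : WeierstrassCurve K} {a b : K}

/-- natural numbers are integral -/
lemma dlp_ge_natCast (n : ℕ) : v.Ge (n : K) 0 := by
  induction n with
  | zero => left; simp
  | succ n ih =>
    push_cast
    exact ih.add v.is_one.ge

/-- **equidistance**: translating a point of abscissa-order `α ≥ 0` by a point of the kernel of
reduction of depth `δ` moves the abscissa by exactly `α + δ`. -/
theorem dlp_equi (hW : IsLeg W a b) (ha : v.Ge a 0) (h2 : v.Is (2 : K) 0) {α δ : ℚ}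
    (hα : 0 ≤ α) (hδ : 0 < δ) (hb : v.Ge b α) {x₁ y₁ x₂ y₂ : K}
    (h₁ : W.toAffine.Nonsingular x₁ y₁) (h₂ : W.toAffine.Nonsingular x₂ y₂)
    (hx₁ : v.Is x₁ α) (hy₁ : v.Is y₁ α) (hx₂ : v.Is x₂ (-(2 * δ))) :
    v.Is (xc (Point.some x₁ y₁ h₁ + Point.some x₂ y₂ h₂) - x₁) (α + δ) ∧
      v.Is (xc (Point.some x₁ y₁ h₁ - Point.some x₂ y₂ h₂) - x₁) (α + δ) := by
  have hx : x₁ ≠ x₂ := by
    intro h
    rw [h] at hx₁
    have := hx₁.unique hx₂
    linarith
  obtain ⟨z₁, w₁, h₁', z₂, w₂, h₂', e₁, e₂, hsum, hprod⟩ := hW.add_sub_of_X_ne h₁ h₂ hx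
  rw [e₁, e₂, xc_some, xc_some]
  have q₁ := hW.eq_of_nonsingular h₁
  have hd : x₁ - x₂ ≠ 0 := sub_ne_zero.mpr hx
  -- the denominator
  have hD : v.Is (x₁ - x₂) (-(2 * δ)) := by
    have := hx₂.neg.add_gt (hx₁.gt (by linarith))
    rwa [neg_add_eq_sub] at this
  have hD2 : v.Is ((x₁ - x₂) ^ 2) (-(4 * δ)) := (hD.sq).congr (by ring)
  -- the product
  have eP : (z₁ - x₁) * (z₂ - x₁) = ((x₁ ^ 2 - b) ^ 2 - 4 * x₂ * y₁ ^ 2) / (x₁ - x₂) ^ 2 := by
    have : (z₁ - x₁) * (z₂ - x₁) = z₁ * z₂ - x₁ * (z₁ + z₂) + x₁ ^ 2 := by ring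
    rw [this, hsum, hprod, q₁]
    field_simp
    ring
  have h4 : v.Is (4 : K) 0 := by
    have := h2.mul h2
    norm_num at this
    exact this
  have hNP : v.Is ((x₁ ^ 2 - b) ^ 2 - 4 * x₂ * y₁ ^ 2) (2 * α - 2 * δ) := by
    have t1 : v.Is (4 * x₂ * y₁ ^ 2) (2 * α - 2 * δ) :=
      ((h4.mul hx₂).mul hy₁.sq).congr (by ring)
    have t2 : v.Ge (x₁ ^ 2 - b) α := (hx₁.sq.ge.mono (by linarith)).sub hb
    have t3 : v.Gt ((x₁ ^ 2 - b) ^ 2) (2 * α - 2 * δ) := t2.sq.gt (by linarith)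
    exact t1.sub_gt' t3
  have hP : v.Is ((z₁ - x₁) * (z₂ - x₁)) (2 * (α + δ)) := by
    rw [eP]
    exact (hNP.div hD2).congr (by ring)
  -- the sum
  have eS : (z₁ - x₁) + (z₂ - x₁) =
      (6 * x₁ ^ 2 * x₂ + 2 * b * x₁ + 2 * b * x₂ + 4 * a * x₁ * x₂ - 2 * x₁ ^ 3) /
        (x₁ - x₂) ^ 2 := by
    have : (z₁ - x₁) + (z₂ - x₁) = (z₁ + z₂) - 2 * x₁ := by ring
    rw [this, hsum]
    field_simp
    ring
  have h6 : v.Ge (6 : K) 0 := by
    have := dlp_ge_natCast (v := v) 6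
    exact_mod_cast this
  have hNS : v.Ge (6 * x₁ ^ 2 * x₂ + 2 * b * x₁ + 2 * b * x₂ + 4 * a * x₁ * x₂ - 2 * x₁ ^ 3)
      (α - 2 * δ) := by
    have t1 : v.Ge (6 * x₁ ^ 2 * x₂) (α - 2 * δ) :=
      ((h6.mul hx₁.sq.ge).mul hx₂.ge).mono (by linarith)
    have t2 : v.Ge (2 * b * x₁) (α - 2 * δ) :=
      ((h2.ge.mul hb).mul hx₁.ge).mono (by linarith)
    have t3 : v.Ge (2 * b * x₂) (α - 2 * δ) :=
      ((h2.ge.mul hb).mul hx₂.ge).mono (by linarith)
    have t4 : v.Ge (4 * a * x₁ * x₂) (α - 2 * δ) :=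
      (((h4.ge.mul ha).mul hx₁.ge).mul hx₂.ge).mono (by linarith)
    have t5 : v.Ge (2 * x₁ ^ 3) (α - 2 * δ) :=
      (h2.ge.mul (hx₁.pow 3).ge).mono (by push_cast; linarith)
    exact (((t1.add t2).add t3).add t4).sub t5
  have hS : v.Ge ((z₁ - x₁) + (z₂ - x₁)) (α + δ) := by
    rw [eS]
    exact (hNS.div_is hD2).mono (by linarith)
  exact QVal.np_eq hS hP

/-- an odd-torsion point with `y = 0` is trivial: so `y ≠ 0` -/
lemma dlp_y_ne_zero_of_torsion (hW : IsLeg W a b) {n : ℕ} (hn : Odd n) {x y : K}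
    (hxy : W.toAffine.Nonsingular x y) (hT : n • Point.some x y hxy = 0) : y ≠ 0 := by
  intro hy
  subst hy
  have e2 : 2 • Point.some x 0 hxy = 0 := by
    rw [two_nsmul]; exact hW.add_self_of_Y_eq_zero hxy
  obtain ⟨k, rfl⟩ := hn
  rw [succ_nsmul, mul_nsmul, e2, smul_zero, zero_add] at hT
  exact Point.some_ne_zero hxy hT

/-- `E_τ` is stable under multiples -/
lemma dlp_inE_nsmul (hW : IsLeg W a b) (ha : v.Ge a 0) (hb : v.Ge b 0) (h2 : v.Is (2 : K) 0)
    {τ : ℚ} (hτ : 0 < τ) {P : W.toAffine.Point} (hP : InE v τ P) (k : ℕ) : InE v τ (k • P) :=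
  (xi_nsmul hW ha hb h2 hτ hP k).1

/-- for an odd-torsion point of an integral curve with `ord x = 0` and `ord (x² - b) = 0`, the
ordinate is a unit (otherwise `2T`, hence `T`, would lie in the kernel of reduction) -/
lemma dlp_is_y_of_unit (hW : IsLeg W a b) (ha : v.Ge a 0) (hb : v.Gt b 0) (h2 : v.Is (2 : K) 0)
    {n : ℕ} (hn : Odd n) {x y : K} (hxy : W.toAffine.Nonsingular x y)
    (hT : n • Point.some x y hxy = 0) (hx : v.Is x 0) : v.Is y 0 := by
  have hy0 : y ≠ 0 := dlp_y_ne_zero_of_torsion hW hn hxy hT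
  have hyge : v.Ge y 0 := y_integral hW ha hb.ge hxy hx.ge
  refine ⟨hy0, le_antisymm ?_ (hyge.resolve_left hy0)⟩
  by_contra hcon
  push Not at hcon
  set τ := v.ord y with hτ
  -- `x(2T) = (x² - b)² / (4 y²)` has order `-2τ`
  obtain ⟨w, h', e⟩ := hW.add_self_of_Y_ne_zero h2.1 hxy hy0
  have hxc : xc (2 • Point.some x y hxy) = (x ^ 2 - b) ^ 2 / (4 * y ^ 2) := by
    rw [two_nsmul, e, xc_some, hW.dup_formula h2.1 hxy hy0]
  have h4 : v.Is (4 : K) 0 := by
    have := h2.mul h2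
    norm_num at this
    exact this
  have hnum : v.Is ((x ^ 2 - b) ^ 2) 0 := by
    have h1 : v.Is (x ^ 2 - b) 0 := by
      have := hx.sq
      rw [mul_zero] at this
      exact this.sub_gt hb
    have := h1.sq
    rwa [mul_zero] at this
  have hden : v.Is (4 * y ^ 2) (2 * τ) := by
    have := h4.mul (QVal.is_ord (v := v) hy0).sq
    rwa [zero_add] at this
  have hX : v.Is ((x ^ 2 - b) ^ 2 / (4 * y ^ 2)) (-(2 * τ)) := (hnum.div hden).congr (by ring)
  have h2T : InE v (2 * τ) (2 • Point.some x y hxy) := by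
    apply inE_of_le
    rw [hxc]
    exact hX.le
  -- `T = ((n + 1) / 2) • (2 T)`
  obtain ⟨k, hk⟩ := hn
  have hTT : (k + 1) • (2 • Point.some x y hxy) = Point.some x y hxy := by
    rw [← mul_nsmul]
    have : 2 * (k + 1) = n + 1 := by omega
    rw [this, succ_nsmul, hT, zero_add]
  have hin := dlp_inE_nsmul hW ha hb.ge h2 (by linarith) h2T (k + 1)
  rw [hTT] at hin
  have hle : v.Le x (-(2 * τ)) := hin
  have := hle.2
  rw [hx.2] at this
  linarith

/-- **the ordinate of a torsion point outside the kernel of reduction**, node case -/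
theorem dlp_is_y_of_torsion (hW : IsLeg W a b) (ha : v.Is a 0) {h : ℚ} (hb : v.Is b h)
    (hh : 0 < h) (h2 : v.Is (2 : K) 0) {n : ℕ} (hn : Odd n) {x y : K}
    (hxy : W.toAffine.Nonsingular x y) (hT : n • Point.some x y hxy = 0) {α : ℚ}
    (hx : v.Is x α) (hα0 : 0 ≤ α) (hαh : α < h) : v.Is y α := by
  rcases eq_or_lt_of_le hα0 with h0 | hpos
  · subst h0
    exact dlp_is_y_of_unit hW ha.ge (hb.gt hh) h2 hn hxy hT hx
  · have hy0 : y ≠ 0 := dlp_y_ne_zero_of_torsion hW hn hxy hT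
    have q := hW.eq_of_nonsingular hxy
    have hfac : y ^ 2 = x * (x ^ 2 + a * x + b) := by rw [q]; ring
    have hg : v.Is (x ^ 2 + a * x + b) α := by
      have t1 : v.Is (a * x) α := (ha.mul hx).congr (by ring)
      have t2 : v.Gt (x ^ 2) α := hx.sq.gt (by linarith)
      have t3 : v.Gt b α := hb.gt hαh
      have := (t1.add_gt' t2).add_gt t3
      exact this
    have hy2 : v.Is (y ^ 2) (α + α) := by
      rw [hfac]
      exact hx.mul hg
    refine ⟨hy0, ?_⟩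
    have := hy2.2
    rw [v.ord_pow hy0] at this
    push_cast at this
    linarith

/-- an odd-torsion point with integral nonzero abscissa has `ord x < h` and `n · ord x ∈ 2hℤ` -/
theorem dlp_lt_of_torsion (hW : IsLeg W a b) (ha : v.Is a 0) {h : ℚ} (hb : v.Is b h)
    (hh : 0 < h) (h2 : v.Is (2 : K) 0) {n : ℕ} (hn : Odd n) {x y : K}
    (hxy : W.toAffine.Nonsingular x y) (hT : n • Point.some x y hxy = 0) {α : ℚ}
    (hx : v.Is x α) (hα0 : 0 ≤ α) : α < h ∧ ∃ k : ℤ, (n : ℚ) * α = 2 * h * k := by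
  obtain ⟨k, hk⟩ := nsmul_fP_mem hW ha hb hh h2 (Point.some x y hxy) hT
  have hfP : fP v h (Point.some x y hxy) = min h α := by
    show fx v h x = min h α
    unfold fx
    rw [if_neg hx.1, hx.2]
    exact max_eq_right (le_min hh.le hα0)
  rw [hfP] at hk
  have hlt : α < h := by
    by_contra hcon
    push Not at hcon
    rw [min_eq_left hcon] at hk
    -- `n h = 2 h k` with `n` odd
    have h1 : (n : ℚ) = 2 * k := by
      have hh0 : h ≠ 0 := hh.ne'
      field_simp at hk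
      linarith
    have h3 : (n : ℤ) = 2 * k := by exact_mod_cast h1
    obtain ⟨j, hj⟩ := hn
    omega
  refine ⟨hlt, k, ?_⟩
  rw [min_eq_right hlt.le] at hk
  exact hk

end

end Fermat.Agent.Delta
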