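/-
DELTA / (D5) PEU (helper4), part 4: elementary group theory in a group of order `p²`.
-/
import Mathlib

set_option autoImplicit false
set_option linter.unusedSectionVars false
set_option linter.unusedVariables false

namespace Fermat.Agent.Delta

section Plane

variable {A : Type*} [AddCommGroup A] {p : ℕ}

/-- a subgroup of a group of order `p²` which is neither trivial nor everything has order `p` -/
lemma dlp_card_of_ne_bot_ne_top (hp : p.Prime) {V H : AddSubgroup A} (hV : Nat.card V = p ^ 2)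
    (hle : H ≤ V) (hbot : H ≠ ⊥) (htop : H ≠ V) : Nat.card H = p := by
  have hVfin : Finite V := Nat.finite_of_card_ne_zero (by rw [hV]; exact pow_ne_zero 2 hp.ne_zero)
  have hdvd : Nat.card H ∣ p ^ 2 := hV ▸ AddSubgroup.card_dvd_of_le hle
  obtain ⟨k, hk, hcard⟩ := (Nat.dvd_prime_pow hp).mp hdvd
  interval_cases k
  · exfalso
    apply hbot
    rw [pow_zero] at hcard
    exact AddSubgroup.card_eq_one.mp hcard
  · rw [hcard, pow_one]
  · exfalso
    apply htop
    exact AddSubgroup.eq_of_le_of_card_ge hle (by rw [hV, hcard])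

/-- in a subgroup of prime order every element is a multiple of a given nonzero element -/
lemma dlp_exists_nsmul_eq (hp : p.Prime) {H : AddSubgroup A} (hH : Nat.card H = p) {Z : A}
    (hZ : Z ∈ H) (hZ0 : Z ≠ 0) {l : A} (hl : l ∈ H) : ∃ i : ℕ, i < p ∧ l = i • Z := by
  haveI : Fact p.Prime := ⟨hp⟩
  have hHfin : Finite H := Nat.finite_of_card_ne_zero (by rw [hH]; exact hp.ne_zero)
  -- `p • Z = 0`
  have hpZ : p • Z = 0 := by
    have h1 : Nat.card H • (⟨Z, hZ⟩ : H) = 0 := card_nsmul_eq_zero'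
    rw [hH] at h1
    have := congrArg (fun x : H => (x : A)) h1
    simpa using this
  have hord : addOrderOf Z = p := addOrderOf_eq_prime hpZ hZ0
  have hle : AddSubgroup.zmultiples Z ≤ H := by
    rw [AddSubgroup.zmultiples_le]
    exact hZ
  have heq : AddSubgroup.zmultiples Z = H :=
    AddSubgroup.eq_of_le_of_card_ge hle (by rw [Nat.card_zmultiples, hord, hH])
  rw [← heq, AddSubgroup.mem_zmultiples_iff] at hl
  obtain ⟨k, hk⟩ := hl
  refine ⟨(k % (p : ℤ)).toNat, ?_, ?_⟩
  · have h1 : k % (p : ℤ) < p := Int.emod_lt_of_pos k (by exact_mod_cast hp.pos)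
    have h2 : 0 ≤ k % (p : ℤ) := Int.emod_nonneg k (by exact_mod_cast hp.ne_zero)
    omega
  · have h2 : 0 ≤ k % (p : ℤ) := Int.emod_nonneg k (by exact_mod_cast hp.ne_zero)
    rw [← hk, ← natCast_zsmul, Int.toNat_of_nonneg h2]
    conv_lhs => rw [← Int.emod_add_mul_ediv k p, add_zsmul, mul_comm, mul_zsmul, natCast_zsmul, hpZ,
      zsmul_zero, add_zero]

/-- a subgroup strictly between a subgroup of order `p` and a group of order `p²` is everything -/
lemma dlp_eq_of_lt (hp : p.Prime) {V H₁ H : AddSubgroup A} (hV : Nat.card V = p ^ 2)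
    (hH₁ : Nat.card H₁ = p) (h₁ : H₁ ≤ H) (hle : H ≤ V) {T : A} (hT : T ∈ H) (hT₁ : T ∉ H₁) :
    H = V := by
  have hVfin : Finite V := Nat.finite_of_card_ne_zero (by rw [hV]; exact pow_ne_zero 2 hp.ne_zero)
  have hHfin : Finite H := by
    have : Finite (H.addSubgroupOf V) := inferInstance
    exact Finite.of_injective (fun x : H => (⟨x.1, hle x.2⟩ : V))
      (fun x y h => Subtype.ext (congrArg (fun z : V => (z : A)) h))
  by_contra hne
  have hbot : H ≠ ⊥ := by
    intro h
    rw [h] at hT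
    have hT0 : T = 0 := AddSubgroup.mem_bot.mp hT
    exact hT₁ (hT0 ▸ H₁.zero_mem)
  have hcard := dlp_card_of_ne_bot_ne_top hp hV hle hbot hne
  have : H₁ = H := AddSubgroup.eq_of_le_of_card_ge h₁ (by rw [hcard, hH₁])
  exact hT₁ (this ▸ hT)

/-- multiples indexed by `ZMod p` of a `p`-torsion element -/
lemma dlp_val_add_nsmul [NeZero p] {Z : A} (hpZ : p • Z = 0) (i j : ZMod p) :
    (i + j).val • Z = i.val • Z + j.val • Z := by
  rw [ZMod.val_add, ← add_nsmul]
  conv_rhs => rw [← Nat.mod_add_div (i.val + j.val) p, add_nsmul, mul_nsmul, hpZ, nsmul_zero,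
    add_zero]

end Plane

end Fermat.Agent.Delta
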