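/-
DELTA / (D5) PEU (helper4), part 1: **the Lagrange resolvent lemma** (pure field theory).

`K` a field with a `ℚ`-valued valuation `v` (`ord p = 1`), `G` a group acting on `K` by
valuation-preserving automorphisms and fixing a primitive `p`-th root of unity `ζ`.
`ξ : ZMod p → K` a family permuted by `G` through translations `i ↦ i + a(σ)`, EQUIDISTANT:
`ord ξ_i = α`, `ord (ξ_i - ξ_j) = α + δ` for `i ≠ j`, with `0 < δ ≤ 1/(p-1)` and `α` in the value
group `Γ` of the fixed field `K^G`.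

Then (`dlp_resolvent`) there are a unit `u ∈ K^G` and `w` with `w ^ p = u` such that every `σ`
fixing `w` has `a(σ) = 0`.

Proof: the resolvents `R_k = ∑_j ζ^(-jk) ξ_j` satisfy `σ R_k = ζ^(a(σ) k) R_k`.  If some `R_k ≠ 0`,
`k ≠ 0`, has `ord R_k ∈ Γ`, take `w = R_k / c`.  Otherwise the orders of the nonzero `R_k` lie in
pairwise distinct classes modulo `Γ`, so `p ξ_0 = ∑ R_k` (of order `1 + α ∈ Γ`) forces
`ord R_k > 1 + α` for `k ≠ 0`, whence `ord (p (ξ_1 - ξ_0)) > 1 + α + 1/(p-1)`: contradiction.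
-/
import Mathlib
import Fermat.Agent.Lib.Delta.Peu.Sums

set_option autoImplicit false
set_option linter.unusedSectionVars false
set_option linter.unusedVariables false

namespace Fermat.Agent.Delta

open Fermat.Agent.S05Lib

section Gamma

variable {K : Type*} [Field K] (G : Type*) [Group G] [MulSemiringAction G K] (v : QVal K)

/-- the value group of the fixed field of `G` -/
def dlpGam : AddSubgroup ℚ where
  carrier := {t | ∃ c : K, c ≠ 0 ∧ (∀ σ : G, σ • c = c) ∧ v.ord c = t}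
  zero_mem' := ⟨1, one_ne_zero, fun σ => smul_one σ, v.ord_one⟩
  add_mem' := by
    rintro s t ⟨c, hc0, hcG, rfl⟩ ⟨d, hd0, hdG, rfl⟩
    exact ⟨c * d, mul_ne_zero hc0 hd0, fun σ => by rw [smul_mul', hcG, hdG],
      v.ord_mul' hc0 hd0⟩
  neg_mem' := by
    rintro s ⟨c, hc0, hcG, rfl⟩
    exact ⟨c⁻¹, inv_ne_zero hc0, fun σ => by rw [smul_inv'', hcG], v.ord_inv hc0⟩

variable {G v}

lemma dlp_mem_gam {c : K} (hc0 : c ≠ 0) (hcG : ∀ σ : G, σ • c = c) : v.ord c ∈ dlpGam G v :=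
  ⟨c, hc0, hcG, rfl⟩

lemma dlp_natCast_mem_gam {p : ℕ} (hp1 : v.Is (p : K) 1) (n : ℤ) : (n : ℚ) ∈ dlpGam G v := by
  have h1 : (1 : ℚ) ∈ dlpGam G v := by
    have := dlp_mem_gam (G := G) (v := v) hp1.1 (fun σ => map_natCast (MulSemiringAction.toRingHom G K σ) p)
    rwa [hp1.2] at this
  have := (dlpGam G v).zsmul_mem h1 n
  simpa using this

/-- if `m π ∈ Γ` and `p π ∈ Γ` with `p` prime, `p ∤ m`, then `π ∈ Γ` -/
lemma dlp_gam_of_coprime {p : ℕ} (hp : p.Prime) {π : ℚ} {m : ℤ} (hm : ¬ (p : ℤ) ∣ m)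
    (h1 : (m : ℚ) * π ∈ dlpGam G v) (h2 : (p : ℚ) * π ∈ dlpGam G v) : π ∈ dlpGam G v := by
  have hcop : IsCoprime m (p : ℤ) := by
    have := (Nat.prime_iff_prime_int.mp hp)
    exact (Prime.coprime_iff_not_dvd this).mpr hm |>.symm
  obtain ⟨x, y, hxy⟩ := hcop
  have e : π = x • ((m : ℚ) * π) + y • ((p : ℚ) * π) := by
    have : (1 : ℚ) = x * m + y * p := by exact_mod_cast hxy.symm
    simp only [zsmul_eq_mul]
    calc π = 1 * π := (one_mul π).symm
      _ = (x * m + y * p) * π := by rw [this]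
      _ = _ := by ring
  rw [e]
  exact (dlpGam G v).add_mem ((dlpGam G v).zsmul_mem h1 x) ((dlpGam G v).zsmul_mem h2 y)

end Gamma

section Resolvent

variable {K : Type*} [Field K] {G : Type*} [Group G] [MulSemiringAction G K] {v : QVal K}
variable {p : ℕ} [Fact p.Prime]

/-- the Lagrange resolvents `R_k = ∑_j ψ(-jk) ξ_j` -/
noncomputable def dlpRes (ψ : AddChar (ZMod p) K) (ξ : ZMod p → K) (k : ZMod p) : K :=
  ∑ j : ZMod p, ψ (-(j * k)) * ξ j

lemma dlpRes_smul (ψ : AddChar (ZMod p) K) (hψG : ∀ (σ : G) (x : ZMod p), σ • ψ x = ψ x)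
    (ξ : ZMod p → K) (a : G → ZMod p) (hξG : ∀ (σ : G) (i : ZMod p), σ • ξ i = ξ (i + a σ))
    (σ : G) (k : ZMod p) : σ • dlpRes ψ ξ k = ψ (a σ * k) * dlpRes ψ ξ k := by
  unfold dlpRes
  rw [Finset.smul_sum, Finset.mul_sum]
  refine Fintype.sum_equiv (Equiv.addRight (a σ)) _ _ ?_
  intro j
  rw [smul_mul', hψG, hξG, Equiv.coe_addRight, ← mul_assoc, ← AddChar.map_add_eq_mul]
  congr 2
  ring

lemma dlpRes_inv (ψ : AddChar (ZMod p) K) (hψ : ψ.IsPrimitive) (ξ : ZMod p → K) (i : ZMod p) :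
    (p : K) * ξ i = ∑ k : ZMod p, ψ (i * k) * dlpRes ψ ξ k := by
  classical
  unfold dlpRes
  simp_rw [Finset.mul_sum]
  rw [Finset.sum_comm]
  have h1 : ∀ j : ZMod p, ∑ k : ZMod p, ψ (i * k) * (ψ (-(j * k)) * ξ j) =
      (if i - j = 0 then (p : K) else 0) * ξ j := by
    intro j
    have h2 := AddChar.sum_mulShift (i - j) hψ
    rw [ZMod.card] at h2
    have h3 : (if i - j = 0 then (p : K) else 0) = ∑ x : ZMod p, ψ (x * (i - j)) := by
      rw [h2]
      split_ifs <;> simp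
    rw [h3, Finset.sum_mul]
    refine Finset.sum_congr rfl fun k _ => ?_
    rw [← mul_assoc, ← AddChar.map_add_eq_mul]
    congr 2
    ring
  rw [Finset.sum_congr rfl (fun j _ => h1 j), Finset.sum_eq_single i]
  · rw [sub_self, if_pos rfl]
  · intro j _ hji
    rw [if_neg (sub_ne_zero.mpr (Ne.symm hji)), zero_mul]
  · intro h
    exact absurd (Finset.mem_univ i) h

/-- **the Lagrange resolvent lemma** -/
theorem dlp_resolvent (hvG : ∀ (σ : G) (x : K), v.ord (σ • x) = v.ord x)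
    {ζ : K} (hζ : IsPrimitiveRoot ζ p) (hζG : ∀ σ : G, σ • ζ = ζ) (hp1 : v.Is (p : K) 1)
    (ξ : ZMod p → K) (a : G → ZMod p) (hξG : ∀ (σ : G) (i : ZMod p), σ • ξ i = ξ (i + a σ))
    {α δ : ℚ} (hδp : ((p : ℚ) - 1) * δ ≤ 1)
    (hξ : v.Is (ξ 0) α) (hdist : v.Is (ξ 1 - ξ 0) (α + δ))
    (hα : α ∈ dlpGam G v) :
    ∃ u w : K, v.Is u 0 ∧ (∀ σ : G, σ • u = u) ∧ w ^ p = u ∧ ∀ σ : G, σ • w = w → a σ = 0 := by
  classical
  have hp : p.Prime := Fact.out
  have hp2 : (1 : ℚ) < p := by exact_mod_cast hp.one_lt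
  set ψ : AddChar (ZMod p) K := AddChar.zmodChar p hζ.pow_eq_one with hψdef
  have hψprim : ψ.IsPrimitive := AddChar.zmodChar_primitive_of_primitive_root p hζ
  have hψG : ∀ (σ : G) (x : ZMod p), σ • ψ x = ψ x := by
    intro σ x
    rw [hψdef, AddChar.zmodChar_apply, smul_pow', hζG]
  have hψp : ∀ x : ZMod p, ψ x ^ p = 1 := by
    intro x
    rw [hψdef, AddChar.zmodChar_apply, ← pow_mul, mul_comm, pow_mul, hζ.pow_eq_one, one_pow]
  have hψ1 : ∀ x : ZMod p, ψ x = 1 → x = 0 := by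
    intro x hx
    rw [hψdef, AddChar.zmodChar_apply] at hx
    have h1 := (hζ.pow_eq_one_iff_dvd _).mp hx
    have h2 : x.val = 0 := Nat.eq_zero_of_dvd_of_lt h1 (ZMod.val_lt x)
    exact (ZMod.val_eq_zero x).mp h2
  have hψ0 : ∀ x : ZMod p, ψ x ≠ 0 := by
    intro x h0
    have := hψp x
    rw [h0, zero_pow hp.ne_zero] at this
    exact zero_ne_one this
  set R : ZMod p → K := dlpRes ψ ξ with hRdef
  have hR1 : ∀ (σ : G) (k : ZMod p), σ • R k = ψ (a σ * k) * R k :=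
    fun σ k => dlpRes_smul ψ hψG ξ a hξG σ k
  have hR2 : ∀ i : ZMod p, (p : K) * ξ i = ∑ k : ZMod p, ψ (i * k) * R k :=
    fun i => dlpRes_inv ψ hψprim ξ i
  -- the trivial case
  by_cases ha : ∀ σ : G, a σ = 0
  · exact ⟨1, 1, v.is_one, fun σ => smul_one σ, one_pow p, fun σ _ => ha σ⟩
  push Not at ha
  obtain ⟨σ₀, hσ₀⟩ := ha
  -- the good case
  by_cases hex : ∃ k : ZMod p, k ≠ 0 ∧ R k ≠ 0 ∧ v.ord (R k) ∈ dlpGam G v
  · obtain ⟨k, hk0, hRk, c, hc0, hcG, hc⟩ := hex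
    have hσw : ∀ σ : G, σ • (R k / c) = ψ (a σ * k) * (R k / c) := by
      intro σ
      rw [smul_div₀', hR1, hcG, mul_div_assoc]
    refine ⟨(R k / c) ^ p, R k / c, ?_, ?_, rfl, ?_⟩
    · have h1 := ((QVal.is_ord (v := v) hRk).div (QVal.is_ord hc0)).pow p
      rw [hc, sub_self, mul_zero] at h1
      exact h1
    · intro σ
      rw [smul_pow', hσw, mul_pow, hψp, one_mul]
    · intro σ hσ
      rw [hσw] at hσ
      have hw0 : R k / c ≠ 0 := div_ne_zero hRk hc0
      have h1 : ψ (a σ * k) = 1 := by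
        have h2 : (ψ (a σ * k) - 1) * (R k / c) = 0 := by rw [sub_mul, hσ, one_mul, sub_self]
        rcases mul_eq_zero.mp h2 with h | h
        · exact sub_eq_zero.mp h
        · exact absurd h hw0
      rcases mul_eq_zero.mp (hψ1 _ h1) with h | h
      · exact h
      · exact absurd h hk0
  -- the bad case is contradictory
  exfalso
  push Not at hex
  have hψone : ψ 0 = 1 := AddChar.map_zero_eq_one ψ
  -- `D = p (ξ_1 - ξ_0) = ∑ (ψ k - 1) R_k`
  have hD : (p : K) * (ξ 1 - ξ 0) = ∑ k : ZMod p, (ψ k - 1) * R k := by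
    rw [mul_sub, hR2 1, hR2 0, ← Finset.sum_sub_distrib]
    refine Finset.sum_congr rfl fun k _ => ?_
    rw [one_mul, zero_mul, hψone]
    ring
  have hS : (p : K) * ξ 0 = ∑ k : ZMod p, R k := by
    rw [hR2 0]
    refine Finset.sum_congr rfl fun k _ => ?_
    rw [zero_mul, hψone, one_mul]
  have hDis : v.Is ((p : K) * (ξ 1 - ξ 0)) (1 + (α + δ)) := hp1.mul hdist
  -- Step 1: some nonzero resolvent with `k ≠ 0`
  have hk₀ : ∃ k₀ : ZMod p, k₀ ≠ 0 ∧ R k₀ ≠ 0 := by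
    by_contra hcon
    push Not at hcon
    apply hDis.1
    rw [hD]
    refine Finset.sum_eq_zero fun k _ => ?_
    by_cases hk : k = 0
    · rw [hk, hψone, sub_self, zero_mul]
    · rw [hcon k hk, mul_zero]
  obtain ⟨k₀, hk₀0, hRk₀⟩ := hk₀
  set π : ℚ := v.ord (R k₀) with hπdef
  have hπ : π ∉ dlpGam G v := hex k₀ hk₀0 hRk₀
  have hpπ : (p : ℚ) * π ∈ dlpGam G v := by
    have h1 : ∀ σ : G, σ • (R k₀ ^ p) = R k₀ ^ p := by
      intro σ
      rw [smul_pow', hR1, mul_pow, hψp, one_mul]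
    have := dlp_mem_gam (v := v) (pow_ne_zero p hRk₀) h1
    rwa [v.ord_pow hRk₀] at this
  -- Step 3: the class of `ord R_k`
  have hclass : ∀ k : ZMod p, R k ≠ 0 →
      v.ord (R k) - ((k * k₀⁻¹).val : ℚ) * π ∈ dlpGam G v := by
    intro k hRk
    set j := (k * k₀⁻¹).val with hj
    have hjc : ((j : ℕ) : ZMod p) = k * k₀⁻¹ := ZMod.natCast_zmod_val _
    have hfix : ∀ σ : G, σ • (R k / R k₀ ^ j) = R k / R k₀ ^ j := by
      intro σ
      rw [smul_div₀', smul_pow', hR1, hR1, mul_pow, ← AddChar.map_nsmul_eq_pow, nsmul_eq_mul, hjc]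
      have e : k * k₀⁻¹ * (a σ * k₀) = a σ * k := by
        field_simp
      rw [e]
      have := hψ0 (a σ * k)
      field_simp
    have := dlp_mem_gam (v := v) (div_ne_zero hRk (pow_ne_zero j hRk₀)) hfix
    rwa [v.ord_div hRk (pow_ne_zero j hRk₀), v.ord_pow hRk₀] at this
  -- Step 4: pairwise distinct orders
  have hdistinct : ∀ k ∈ (Finset.univ : Finset (ZMod p)), ∀ k' ∈ (Finset.univ : Finset (ZMod p)),
      k ≠ k' → R k ≠ 0 → R k' ≠ 0 → v.ord (R k) ≠ v.ord (R k') := by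
    intro k _ k' _ hkk' hRk hRk' heq
    apply hπ
    have h1 := hclass k hRk
    have h2 := hclass k' hRk'
    set j := (k * k₀⁻¹).val with hj
    set j' := (k' * k₀⁻¹).val with hj'
    have hjc : ((j : ℕ) : ZMod p) = k * k₀⁻¹ := ZMod.natCast_zmod_val _
    have hjc' : ((j' : ℕ) : ZMod p) = k' * k₀⁻¹ := ZMod.natCast_zmod_val _
    have hm : ¬ (p : ℤ) ∣ ((j : ℤ) - (j' : ℤ)) := by
      intro hdvd
      apply hkk'
      have h3 : (((j : ℤ) - (j' : ℤ) : ℤ) : ZMod p) = 0 :=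
        (ZMod.intCast_zmod_eq_zero_iff_dvd _ p).mpr hdvd
      push_cast at h3
      rw [hjc, hjc', ← sub_mul] at h3
      rcases mul_eq_zero.mp h3 with h | h
      · exact sub_eq_zero.mp h
      · exact absurd (inv_eq_zero.mp h) hk₀0
    refine dlp_gam_of_coprime hp hm ?_ hpπ
    have e : (((j : ℤ) - (j' : ℤ) : ℤ) : ℚ) * π =
        (v.ord (R k') - (j' : ℚ) * π) - (v.ord (R k) - (j : ℚ) * π) := by
      push_cast
      rw [heq]
      ring
    rw [e]
    exact (dlpGam G v).sub_mem h2 h1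
  -- Step 5: the minimum is attained at `k = 0`
  obtain ⟨m, -, hRm, hsum, hgt⟩ := dlp_sum_distinct (v := v) Finset.univ R hdistinct
    ⟨k₀, Finset.mem_univ _, hRk₀⟩
  rw [← hS] at hsum
  have hone : (1 : ℚ) ∈ dlpGam G v := by
    have := dlp_natCast_mem_gam (G := G) hp1 1
    simpa using this
  have hm0 : m = 0 := by
    by_contra hm0
    apply hex m hm0 hRm
    rw [← (hp1.mul hξ).unique hsum]
    exact (dlpGam G v).add_mem hone hα
  have hordm : v.ord (R m) = 1 + α := ((hp1.mul hξ).unique hsum).symm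
  -- Step 6: the contradiction
  have hDgt : v.Gt ((p : K) * (ξ 1 - ξ 0)) (1 / ((p : ℚ) - 1) + (1 + α)) := by
    rw [hD]
    refine dlp_gt_sum _ _ _ fun k _ => ?_
    by_cases hk : k = 0
    · left
      rw [hk, hψone, sub_self, zero_mul]
    · have h1 : v.Is (ψ k - 1) (1 / ((p : ℚ) - 1)) := by
        rw [hψdef, AddChar.zmodChar_apply]
        apply dlp_is_zeta_pow_sub_one hp hζ hp1
        intro hdvd
        apply hk
        have h2 : k.val = 0 := Nat.eq_zero_of_dvd_of_lt hdvd (ZMod.val_lt k)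
        exact (ZMod.val_eq_zero k).mp h2
      have h2 : v.Gt (R k) (1 + α) := by
        have := hgt k (Finset.mem_univ _) (by rw [hm0]; exact hk)
        rwa [hordm] at this
      exact h1.ge.mul_gt h2
  have hlt : 1 / ((p : ℚ) - 1) + (1 + α) < 1 + (α + δ) := by
    rcases hDgt with h | h
    · exact absurd h hDis.1
    · rwa [hDis.2] at h
  have hpos : (0 : ℚ) < (p : ℚ) - 1 := by linarith
  have h3 : 1 / ((p : ℚ) - 1) < δ := by linarith
  rw [div_lt_iff₀ hpos] at h3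
  linarith

end Resolvent

end Fermat.Agent.Delta
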