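/-
DELTA / (D5) PEU (helper4), part 5: **PEU for a Legendre model with a node at `p`**.

`𝔓` a place of `ℚ̄` over the odd prime `p`, `L : y² = x³ + a x² + b x` over `ℚ` with `ord a = 0`,
`ord b = p · h₀` (`h₀ ≥ 1` an integer — this is where `p ∣ ord_p Δ` enters), `|L[p]| = p²`, inertia
moving `p`-torsion points by elements of the kernel of reduction (P1), and the determinant input
(DET).  Then (`dlp_leg_peu`): the line `L₁ := L[p] ∩ E₁` has order `p`, inertia acts trivially on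
`L[p] / L₁` and through the cyclotomic character on `L₁`, and there is a `𝔓`-unit `u` of
`K₁ = K0(ζ_p)` such that `L[p]` is fixed by the elements of inertia fixing `ζ_p` and `u ^ (1/p)`.
-/
import Mathlib
import Fermat.Agent.Lib.S13.AtPGlobal
import Fermat.Agent.Lib.S13.AtPLeg
import Fermat.Agent.Lib.TW.LF.Unr
import Fermat.Agent.Lib.Delta.Peu.Resolvent
import Fermat.Agent.Lib.Delta.Peu.Equi
import Fermat.Agent.Lib.Delta.Peu.Depth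
import Fermat.Agent.Lib.Delta.Peu.Plane

set_option autoImplicit false
set_option linter.unusedSectionVars false
set_option linter.unusedVariables false
set_option linter.style.haveILetI false

open WeierstrassCurve WeierstrassCurve.Affine

namespace Fermat.Agent.Delta

open Fermat.Agent.S05Lib Fermat.Agent.S13Lib Fermat.Agent.TW

local notation "Qb" => AlgebraicClosure ℚ
local notation "GQ" => (AlgebraicClosure ℚ ≃ₐ[ℚ] AlgebraicClosure ℚ)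

/-- the valuation of a place is a `QValFor` -/
theorem dlp_qvalFor (𝔓 : FFPlace) : QValFor 𝔓.P 𝔓.p 𝔓.v := by
  refine ⟨?_, ?_, ?_, ?_, ?_⟩
  · exact fun x => qv_mem_iff 𝔓.P 𝔓.hp 𝔓.hP qv_isAlgebraic_int_qbar x
  · exact fun n hn => qvOrd_intCast 𝔓.P 𝔓.hp 𝔓.hP hn
  · show 0 < qvOrd 𝔓.P 𝔓.p ((𝔓.p : ℕ) : Qb)
    rw [qvOrd_q 𝔓.P 𝔓.hp 𝔓.hP]; exact one_pos
  · exact fun σ hσ x => qv_inertia_ord 𝔓.P 𝔓.hp 𝔓.hP qv_isAlgebraic_int_qbar hσ x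
  · exact fun σ hσ x hx => qv_inertia_sub 𝔓.P 𝔓.hp 𝔓.hP qv_isAlgebraic_int_qbar hσ hx

/-- `p` is ramified in `ℚ(ζ_p)`: some element of the inertia group moves `ζ_p` (`p` odd) -/
theorem dlp_exists_inertia_moving_zeta (𝔓 : FFPlace) (hp2 : 𝔓.p ≠ 2) {ζ : Qb}
    (hζ : IsPrimitiveRoot ζ 𝔓.p) : ∃ σ ∈ 𝔓.I, σ ζ ≠ ζ := by
  by_contra hcon
  push Not at hcon
  have hζK : ζ ∈ 𝔓.K0 := (𝔓.mem_K0_iff ζ).mpr hcon
  have h1K : ζ - 1 ∈ 𝔓.K0 := 𝔓.K0.sub_mem hζK 𝔓.K0.one_mem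
  have his : 𝔓.v.Is (ζ ^ 1 - 1) (1 / ((𝔓.p : ℚ) - 1)) :=
    dlp_is_zeta_pow_sub_one 𝔓.hp hζ 𝔓.is_p
      (fun h => 𝔓.hp.one_lt.ne' (Nat.dvd_one.mp h))
  rw [pow_one] at his
  obtain ⟨n, hn⟩ := 𝔓.lf_unr (ζ - 1) h1K his.1
  rw [his.2] at hn
  -- `1 / (p - 1) = n` with `p ≥ 3`
  have hp3 : 3 ≤ 𝔓.p := by
    have := 𝔓.hp.two_le
    omega
  have hp3' : (3 : ℚ) ≤ 𝔓.p := by exact_mod_cast hp3
  have hpos : (0 : ℚ) < (𝔓.p : ℚ) - 1 := by linarith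
  have h1 : (n : ℚ) * ((𝔓.p : ℚ) - 1) = 1 := by
    rw [← hn]
    field_simp
  have hnpos : (0 : ℚ) < n := by
    by_contra hle
    push Not at hle
    have : (n : ℚ) * ((𝔓.p : ℚ) - 1) ≤ 0 := mul_nonpos_of_nonpos_of_nonneg hle hpos.le
    linarith
  have hn1 : (1 : ℚ) ≤ n := by
    have : (0 : ℤ) < n := by exact_mod_cast hnpos
    have : (1 : ℤ) ≤ n := this
    exact_mod_cast this
  nlinarith

section Leg

variable (𝔓 : FFPlace) {L : WeierstrassCurve ℚ}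

/-- the `p`-torsion subgroup -/
noncomputable def dlpTors (L : WeierstrassCurve ℚ) (p : ℕ) : AddSubgroup (L.toAffine⁄Qb).Point where
  carrier := {T | p • T = 0}
  zero_mem' := nsmul_zero p
  add_mem' := fun {x y} hx hy => by
    show p • (x + y) = 0
    rw [nsmul_add, show p • x = 0 from hx, show p • y = 0 from hy, add_zero]
  neg_mem' := fun {x} hx => by
    show p • (-x) = 0
    rw [neg_nsmul, show p • x = 0 from hx, _root_.neg_zero]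

theorem mem_dlpTors {p : ℕ} {T : (L.toAffine⁄Qb).Point} : T ∈ dlpTors L p ↔ p • T = 0 := Iff.rfl

/-- the Galois action preserves the torsion -/
theorem dlp_smul_mem_tors {p : ℕ} (σ : GQ) {T : (L.toAffine⁄Qb).Point} (hT : p • T = 0) :
    p • (σ • T) = 0 := by
  rw [smul_comm p σ T, hT, smul_zero]

/-- the kernel of reduction is stable under the inertia group -/
theorem dlp_inE_smul {σ : GQ} (hσ : σ ∈ 𝔓.I) {τ : ℚ} {T : (L.toAffine⁄Qb).Point}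
    (hT : InE 𝔓.v τ T) : InE 𝔓.v τ (σ • T) := by
  by_cases hT0 : T = 0
  · rw [hT0, (smul_eq_zero_iff' σ 0).mpr rfl]; trivial
  · have h1 := le_of_inE hT hT0
    apply inE_of_le
    rw [xc_smul]
    exact ⟨(map_ne_zero_iff σ σ.injective).mpr h1.1, by
      rw [(dlp_qvalFor 𝔓).ord_inertia σ hσ]; exact h1.2⟩

variable {a b : Qb}

/-- the part of the `p`-torsion in the kernel of reduction -/
noncomputable def dlpKer (hW : IsLeg (L.toAffine⁄Qb) a b) (ha : 𝔓.v.Ge a 0) (hb : 𝔓.v.Ge b 0)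
    (hp2 : 𝔓.p ≠ 2) : AddSubgroup (L.toAffine⁄Qb).Point where
  carrier := {T | 𝔓.p • T = 0 ∧ ∃ τ : ℚ, 0 < τ ∧ InE 𝔓.v τ T}
  zero_mem' := ⟨nsmul_zero _, 1, one_pos, trivial⟩
  add_mem' := by
    rintro T T' ⟨h1, τ, hτ, i⟩ ⟨h1', τ', hτ', i'⟩
    refine ⟨by rw [nsmul_add, h1, h1', add_zero], min τ τ', lt_min hτ hτ', ?_⟩
    exact (inE_add_sub hW ha hb ((dlp_qvalFor 𝔓).is_two 𝔓.hp hp2) (lt_min hτ hτ')
      (i.mono (min_le_left _ _)) (i'.mono (min_le_right _ _))).1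
  neg_mem' := by
    rintro T ⟨h1, τ, hτ, i⟩
    exact ⟨by rw [neg_nsmul, h1, _root_.neg_zero], τ, hτ, i.neg hW⟩

/-- multiples of a `p`-torsion element depend only on the residue modulo `p` -/
lemma dlp_nsmul_eq_of_modEq {A : Type*} [AddCommGroup A] {p k k' : ℕ} {l : A} (hpl : p • l = 0)
    (h : k ≡ k' [MOD p]) : k • l = k' • l := by
  have key : ∀ n : ℕ, n • l = (n % p) • l := by
    intro n
    conv_lhs => rw [← Nat.mod_add_div n p, add_nsmul, mul_nsmul, hpl, nsmul_zero, add_zero]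
  rw [key k, key k', h]

set_option maxHeartbeats 1600000 in
/-- **PEU for a Legendre model with a node at `p`** -/
theorem dlp_leg_peu (hp2 : 𝔓.p ≠ 2) (hW : IsLeg (L.toAffine⁄Qb) a b) (hb0 : b ≠ 0)
    (hab : a ^ 2 - 4 * b ≠ 0) (ha : 𝔓.v.Is a 0) {h₀ : ℕ} (hh₀ : 1 ≤ h₀)
    (hb : 𝔓.v.Is b ((𝔓.p : ℚ) * h₀))
    (hcard : Nat.card (dlpTors L 𝔓.p) = 𝔓.p ^ 2)
    (hP1 : ∀ σ ∈ 𝔓.I, ∀ x : (L.toAffine⁄Qb).Point, 𝔓.p • x = 0 →
      ∃ τ : ℚ, 0 < τ ∧ InE 𝔓.v τ (σ • x - x))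
    {ζ : Qb} (hζ : IsPrimitiveRoot ζ 𝔓.p)
    (hdet : ∀ σ ∈ 𝔓.I, ∀ (N : AddSubgroup (L.toAffine⁄Qb).Point) (k : ℕ), Nat.card N = 𝔓.p →
      N ≤ dlpTors L 𝔓.p → (∀ l ∈ N, σ • l = k • l) →
      (∀ x : (L.toAffine⁄Qb).Point, 𝔓.p • x = 0 → σ • x - x ∈ N) → σ ζ = ζ ^ k) :
    ∃ (L₁ : AddSubgroup (L.toAffine⁄Qb).Point) (u w : Qb),
      Nat.card L₁ = 𝔓.p ∧ (∀ l ∈ L₁, 𝔓.p • l = 0) ∧
      (∀ σ ∈ 𝔓.I, ∀ x : (L.toAffine⁄Qb).Point, 𝔓.p • x = 0 → σ • x - x ∈ L₁) ∧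
      (∀ σ ∈ 𝔓.I, ∀ k : ℕ, σ ζ = ζ ^ k → ∀ l ∈ L₁, σ • l = k • l) ∧
      𝔓.v.Is u 0 ∧ (∀ σ ∈ 𝔓.I, σ ζ = ζ → σ u = u) ∧ w ^ 𝔓.p = u ∧
      (∀ σ ∈ 𝔓.I, σ ζ = ζ → σ w = w →
        ∀ x : (L.toAffine⁄Qb).Point, 𝔓.p • x = 0 → σ • x = x) := by
  classical
  have hp := 𝔓.hp
  haveI : Fact 𝔓.p.Prime := ⟨hp⟩
  have hv := dlp_qvalFor 𝔓
  have h2 := hv.is_two hp hp2
  have hp1 : 𝔓.v.Is ((𝔓.p : ℕ) : Qb) 1 := 𝔓.is_p
  have hpodd : Odd 𝔓.p := hp.odd_of_ne_two hp2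
  have hp3 : 3 ≤ 𝔓.p := by
    have := hp.two_le
    omega
  have hppos : (0 : ℚ) < 𝔓.p := by exact_mod_cast hp.pos
  have hh1 : (1 : ℚ) ≤ (𝔓.p : ℚ) * h₀ := by
    have h1 : (1 : ℚ) ≤ h₀ := by exact_mod_cast hh₀
    have h3 : (3 : ℚ) ≤ 𝔓.p := by exact_mod_cast hp3
    nlinarith
  have hhpos : (0 : ℚ) < (𝔓.p : ℚ) * h₀ := by linarith
  have hage : 𝔓.v.Ge a 0 := ha.ge
  have hbge : 𝔓.v.Ge b 0 := hb.ge' hhpos.le
  set V := dlpTors L 𝔓.p with hVdef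
  set V₁ := dlpKer 𝔓 hW hage hbge hp2 with hV₁def
  have hV₁le : V₁ ≤ V := fun T hT => hT.1
  have hVfin : Finite V := Nat.finite_of_card_ne_zero (by rw [hcard]; exact pow_ne_zero 2 hp.ne_zero)
  haveI : Finite ↑{T : (L.toAffine⁄Qb).Point | 𝔓.p • T = 0} := hVfin
  have hfin : {T : (L.toAffine⁄Qb).Point | 𝔓.p • T = 0}.Finite := Set.toFinite _
  set Vp : Finset (L.toAffine⁄Qb).Point := hfin.toFinset with hVpdef
  have hVp : ∀ T, T ∈ Vp ↔ 𝔓.p • T = 0 := fun T => by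
    rw [hVpdef, Set.Finite.mem_toFinset]; rfl
  -- a torsion point outside the kernel of reduction
  obtain ⟨T, hTV, hT0, hTge⟩ :=
    dlp_exists_not_ker hW hb0 hab hage hh1 hb.ge hpodd hp3 hp1 Vp hVp
  have hTtor : 𝔓.p • T = 0 := (hVp T).mp hTV
  have hTV₁ : T ∉ V₁ := by
    rintro ⟨-, τ, hτ, i⟩
    exact (le_of_inE i hT0).not_ge hTge (by linarith)
  have hV₁top : V₁ ≠ V := fun h => hTV₁ (h ▸ hTtor)
  -- (i)
  have hi : ∀ σ ∈ 𝔓.I, ∀ x : (L.toAffine⁄Qb).Point, 𝔓.p • x = 0 → σ • x - x ∈ V₁ := by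
    intro σ hσ x hx
    obtain ⟨τ, hτ, i⟩ := hP1 σ hσ x hx
    exact ⟨by rw [nsmul_sub, dlp_smul_mem_tors σ hx, hx, sub_zero], τ, hτ, i⟩
  -- `V₁ ≠ ⊥`
  have hV₁bot : V₁ ≠ ⊥ := by
    intro hbot
    obtain ⟨σ, hσ, hσζ⟩ := dlp_exists_inertia_moving_zeta 𝔓 hp2 hζ
    apply hσζ
    have hfix : ∀ x : (L.toAffine⁄Qb).Point, 𝔓.p • x = 0 → σ • x = x := by
      intro x hx
      have := hi σ hσ x hx
      rw [hbot, AddSubgroup.mem_bot] at this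
      exact sub_eq_zero.mp this
    have hord : addOrderOf T = 𝔓.p := addOrderOf_eq_prime hTtor hT0
    have hle : AddSubgroup.zmultiples T ≤ V := by
      rw [AddSubgroup.zmultiples_le]
      exact hTtor
    have hN := hdet σ hσ (AddSubgroup.zmultiples T) 1 (by rw [Nat.card_zmultiples, hord]) hle
      (fun l hl => by rw [one_smul]; exact hfix l (hle hl))
      (fun x hx => by rw [hfix x hx, sub_self]; exact (AddSubgroup.zmultiples T).zero_mem)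
    rwa [pow_one] at hN
  have hV₁card : Nat.card V₁ = 𝔓.p := dlp_card_of_ne_bot_ne_top hp hcard hV₁le hV₁bot hV₁top
  -- a generator of `V₁`
  obtain ⟨Z, hZV₁, hZ0⟩ : ∃ Z ∈ V₁, Z ≠ 0 := by
    obtain ⟨⟨Z, hZ⟩, hZ0⟩ := AddSubgroup.ne_bot_iff_exists_ne_zero.mp hV₁bot
    exact ⟨Z, hZ, fun h => hZ0 (Subtype.ext h)⟩
  have hZtor : 𝔓.p • Z = 0 := hZV₁.1
  obtain ⟨τZ, hτZ, iZ⟩ := hZV₁.2
  have hZle := le_of_inE iZ hZ0
  set δ : ℚ := -(𝔓.v.ord (xc Z)) / 2 with hδ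
  have hδpos : 0 < δ := by
    have := hZle.2
    rw [hδ]; linarith
  have hZis : 𝔓.v.Is (xc Z) (-(2 * δ)) := ⟨hZle.1, by rw [hδ]; ring⟩
  have hmul : ∀ i : ℕ, ¬ 𝔓.p ∣ i → 𝔓.v.Is (xc (i • Z)) (-(2 * δ)) := by
    intro i hi
    have hiu : 𝔓.v.Is ((i : ℕ) : Qb) 0 := by
      have := hv.is_int (n := (i : ℤ)) (by exact_mod_cast hi)
      exact_mod_cast this
    have := is_xc_nsmul hW hage hbge h2 hiu (by linarith : (0 : ℚ) < 2 * δ) (by linarith) hZis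
    exact this.congr (by ring)
  have hV₁depth : ∀ l ∈ V₁, l ≠ 0 → 𝔓.v.Is (xc l) (-(2 * δ)) := by
    intro l hl hl0
    obtain ⟨i, hip, rfl⟩ := dlp_exists_nsmul_eq hp hV₁card hZV₁ hZ0 hl
    apply hmul
    intro hdvd
    have : i = 0 := Nat.eq_zero_of_dvd_of_lt hdvd hip
    rw [this, zero_nsmul] at hl0
    exact hl0 rfl
  -- the depth bound
  have hδp : ((𝔓.p : ℚ) - 1) * δ ≤ 1 := by
    have hD := dlp_sum_depth_neg_le hW hb0 hab hage hbge hpodd hp1 Vp hVp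
    set S₁ := (Vp.erase 0).filter (fun T => T ∈ V₁) with hS₁
    have hS₁mem : ∀ l, l ∈ S₁ ↔ l ≠ 0 ∧ l ∈ V₁ := by
      intro l
      rw [hS₁, Finset.mem_filter, Finset.mem_erase, hVp]
      exact ⟨fun h => ⟨h.1.1, h.2⟩, fun h => ⟨⟨h.1, h.2.1⟩, h.2⟩⟩
    have hsub : S₁ ⊆ (Vp.erase 0).filter (fun T => 𝔓.v.ord (xc T) < 0) := by
      intro l hl
      have hl' := (hS₁mem l).mp hl
      rw [Finset.mem_filter, Finset.mem_erase, hVp]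
      refine ⟨⟨hl'.1, hl'.2.1⟩, ?_⟩
      rw [(hV₁depth l hl'.2 hl'.1).2]; linarith
    have h1 : ∑ l ∈ S₁, (-(𝔓.v.ord (xc l))) ≤ 2 :=
      le_trans (Finset.sum_le_sum_of_subset_of_nonneg hsub (by
        intro l hl _
        rw [Finset.mem_filter] at hl
        linarith [hl.2])) hD
    have h2' : ∑ l ∈ S₁, (-(𝔓.v.ord (xc l))) = (S₁.card : ℚ) * (2 * δ) := by
      rw [Finset.sum_congr rfl (fun l hl => by
        have hl' := (hS₁mem l).mp hl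
        rw [(hV₁depth l hl'.2 hl'.1).2, neg_neg]), Finset.sum_const, nsmul_eq_mul]
    have hcardS : S₁.card + 1 = 𝔓.p := by
      rw [← hV₁card]
      have h0 : (0 : (L.toAffine⁄Qb).Point) ∉ S₁ := fun h => ((hS₁mem 0).mp h).1 rfl
      rw [← Finset.card_insert_of_notMem h0, ← Fintype.card_coe, ← Nat.card_eq_fintype_card]
      refine Nat.card_congr (Equiv.subtypeEquivRight fun l => ?_)
      rw [Finset.mem_insert, hS₁mem]
      constructor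
      · rintro (rfl | h)
        · exact V₁.zero_mem
        · exact h.2
      · intro h
        by_cases hl0 : l = 0
        · exact Or.inl hl0
        · exact Or.inr ⟨hl0, h⟩
    have hcardS' : (S₁.card : ℚ) = (𝔓.p : ℚ) - 1 := by
      have : ((S₁.card + 1 : ℕ) : ℚ) = (𝔓.p : ℚ) := by rw [hcardS]
      push_cast at this
      linarith
    rw [h2', hcardS'] at h1
    linarith
  -- the point `T`
  have hxT0 : xc T ≠ 0 := xc_ne_zero_of_odd_torsion hW hpodd hTtor hT0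
  have hii : ∀ σ ∈ 𝔓.I, ∀ k : ℕ, σ ζ = ζ ^ k → ∀ l ∈ V₁, σ • l = k • l := by
    intro σ hσ k hk l hl
    have hσZ : σ • Z ∈ V₁ := ⟨dlp_smul_mem_tors σ hZtor, τZ, hτZ, dlp_inE_smul 𝔓 hσ iZ⟩
    obtain ⟨k', hk'p, hk'⟩ := dlp_exists_nsmul_eq hp hV₁card hZV₁ hZ0 hσZ
    have hact : ∀ l ∈ V₁, σ • l = k' • l := by
      intro l hl
      obtain ⟨i, -, rfl⟩ := dlp_exists_nsmul_eq hp hV₁card hZV₁ hZ0 hl
      rw [← smul_comm i σ Z, hk', smul_comm]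
    have h1 := hdet σ hσ V₁ k' hV₁card hV₁le hact (hi σ hσ)
    rw [hk] at h1
    have key : ∀ n : ℕ, ζ ^ n = ζ ^ (n % 𝔓.p) := by
      intro n
      conv_lhs => rw [← Nat.mod_add_div n 𝔓.p, pow_add, pow_mul, hζ.pow_eq_one, one_pow, mul_one]
    have hmod : k ≡ k' [MOD 𝔓.p] :=
      hζ.pow_inj (Nat.mod_lt _ hp.pos) (Nat.mod_lt _ hp.pos) (by rw [← key, ← key, h1])
    rw [hact l hl]
    exact (dlp_nsmul_eq_of_modEq hl.1 hmod).symm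
  rcases T with _ | ⟨x₁, y₁, h₁⟩
  · exact absurd rfl hT0
  rcases Z with _ | ⟨x₂, y₂, h₂⟩
  · exact absurd rfl hZ0
  set α : ℚ := 𝔓.v.ord x₁ with hα
  have hxT : 𝔓.v.Is x₁ α := ⟨hxT0, rfl⟩
  have hα0 : 0 ≤ α := hTge.resolve_left hxT0
  obtain ⟨hαh, kα, hkα⟩ := dlp_lt_of_torsion hW ha hb hhpos h2 hpodd h₁ hTtor hxT hα0
  have hy₁ := dlp_is_y_of_torsion hW ha hb hhpos h2 hpodd h₁ hTtor hxT hα0 hαh
  have hαint : α = ((2 * (h₀ : ℤ) * kα : ℤ) : ℚ) := by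
    push_cast
    have : (𝔓.p : ℚ) * α = (𝔓.p : ℚ) * (2 * h₀ * kα) := by rw [hkα]; ring
    exact mul_left_cancel₀ hppos.ne' this
  have hequi := (dlp_equi hW hage h2 hα0 hδpos (hb.ge' hαh.le) h₁ h₂ hxT hy₁ hZis).1
  -- the translation character
  have hσT : ∀ σ : GQ, ∃ i : ℕ, σ ∈ 𝔓.I → i < 𝔓.p ∧
      σ • Point.some x₁ y₁ h₁ - Point.some x₁ y₁ h₁ = i • Point.some x₂ y₂ h₂ := by
    intro σ
    by_cases hσ : σ ∈ 𝔓.I
    · obtain ⟨i, hi1, hi2⟩ := dlp_exists_nsmul_eq hp hV₁card hZV₁ hZ0 (hi σ hσ _ hTtor)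
      exact ⟨i, fun _ => ⟨hi1, hi2⟩⟩
    · exact ⟨0, fun h => absurd h hσ⟩
  choose aN haN using hσT
  set G : Subgroup GQ := 𝔓.I ⊓ MulAction.stabilizer GQ ζ with hG
  have hGI : ∀ σ : ↥G, (σ : GQ) ∈ 𝔓.I := fun σ => σ.2.1
  have hGζ : ∀ σ : ↥G, (σ : GQ) ζ = ζ := fun σ => σ.2.2
  have hGZ : ∀ σ : ↥G, (σ : GQ) • Point.some x₂ y₂ h₂ = Point.some x₂ y₂ h₂ := by
    intro σ
    have := hii σ (hGI σ) 1 (by rw [pow_one]; exact hGζ σ) _ hZV₁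
    rwa [one_smul] at this
  let aa : ↥G → ZMod 𝔓.p := fun σ => (aN (σ : GQ) : ZMod 𝔓.p)
  let ξ : ZMod 𝔓.p → Qb := fun i => xc (Point.some x₁ y₁ h₁ + i.val • Point.some x₂ y₂ h₂)
  have hξG : ∀ (σ : ↥G) (i : ZMod 𝔓.p), σ • ξ i = ξ (i + aa σ) := by
    intro σ i
    show (σ : GQ) (xc (Point.some x₁ y₁ h₁ + i.val • Point.some x₂ y₂ h₂)) =
      xc (Point.some x₁ y₁ h₁ + (i + aa σ).val • Point.some x₂ y₂ h₂)
    have h1 : (σ : GQ) • Point.some x₁ y₁ h₁ =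
        Point.some x₁ y₁ h₁ + aN σ • Point.some x₂ y₂ h₂ := by
      rw [← (haN σ (hGI σ)).2]; abel
    have e1 : (σ : GQ) • (Point.some x₁ y₁ h₁ + i.val • Point.some x₂ y₂ h₂) =
        Point.some x₁ y₁ h₁ + aN σ • Point.some x₂ y₂ h₂ + i.val • Point.some x₂ y₂ h₂ := by
      refine (smul_add (σ : GQ) _ _).trans ?_
      rw [h1, ← smul_comm i.val (σ : GQ), hGZ]
    rw [← xc_smul, e1, dlp_val_add_nsmul hZtor, add_assoc]
    congr 2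
    show aN σ • Point.some x₂ y₂ h₂ + i.val • Point.some x₂ y₂ h₂ =
      i.val • Point.some x₂ y₂ h₂ + (aa σ).val • Point.some x₂ y₂ h₂
    rw [show (aa σ).val = aN σ from ZMod.val_natCast_of_lt (haN σ (hGI σ)).1, add_comm]
  have hvG : ∀ (σ : ↥G) (x : Qb), 𝔓.v.ord (σ • x) = 𝔓.v.ord x :=
    fun σ x => hv.ord_inertia σ (hGI σ) x
  have hζG : ∀ σ : ↥G, σ • ζ = ζ := hGζ
  have hξ0 : 𝔓.v.Is (ξ 0) α := by
    show 𝔓.v.Is (xc (Point.some x₁ y₁ h₁ + (0 : ZMod 𝔓.p).val • Point.some x₂ y₂ h₂)) α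
    rw [ZMod.val_zero, zero_nsmul, add_zero]
    exact hxT
  have hξ1 : 𝔓.v.Is (ξ 1 - ξ 0) (α + δ) := by
    show 𝔓.v.Is (xc (Point.some x₁ y₁ h₁ + (1 : ZMod 𝔓.p).val • Point.some x₂ y₂ h₂) -
      xc (Point.some x₁ y₁ h₁ + (0 : ZMod 𝔓.p).val • Point.some x₂ y₂ h₂)) (α + δ)
    haveI : Fact (1 < 𝔓.p) := ⟨hp.one_lt⟩
    rw [ZMod.val_one, one_nsmul, ZMod.val_zero, zero_nsmul, add_zero]
    exact hequi
  have hαΓ : α ∈ dlpGam ↥G 𝔓.v := by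
    rw [hαint]
    exact dlp_natCast_mem_gam hp1 _
  obtain ⟨u, w, hu, huG, hwu, hwa⟩ :=
    dlp_resolvent hvG hζ hζG hp1 ξ aa hξG hδp hξ0 hξ1 hαΓ
  refine ⟨V₁, u, w, hV₁card, fun l hl => hl.1, hi, hii, hu, ?_, hwu, ?_⟩
  · intro σ hσ hσζ
    exact huG ⟨σ, hσ, hσζ⟩
  · intro σ hσ hσζ hσw x hx
    have ha0 : aa ⟨σ, hσ, hσζ⟩ = 0 := hwa ⟨σ, hσ, hσζ⟩ hσw
    have haN0 : aN σ = 0 := by
      have h1 : ((aN σ : ℕ) : ZMod 𝔓.p) = 0 := ha0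
      have h2' := (ZMod.natCast_eq_zero_iff _ _).mp h1
      exact Nat.eq_zero_of_dvd_of_lt h2' (haN σ hσ).1
    have hσT : σ • Point.some x₁ y₁ h₁ = Point.some x₁ y₁ h₁ := by
      have := (haN σ hσ).2
      rw [haN0, zero_nsmul] at this
      exact sub_eq_zero.mp this
    let H : AddSubgroup (L.toAffine⁄Qb).Point :=
      { carrier := {x | 𝔓.p • x = 0 ∧ σ • x = x}
        zero_mem' := ⟨nsmul_zero _, smul_zero σ⟩
        add_mem' := by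
          rintro x y ⟨hx1, hx2⟩ ⟨hy1, hy2⟩
          exact ⟨by rw [nsmul_add, hx1, hy1, add_zero],
            (smul_add σ x y).trans (by rw [hx2, hy2])⟩
        neg_mem' := by
          rintro x ⟨hx1, hx2⟩
          exact ⟨by rw [neg_nsmul, hx1, _root_.neg_zero], (smul_neg σ x).trans (by rw [hx2])⟩ }
    have hHV : H = V := dlp_eq_of_lt hp hcard hV₁card
      (fun l hl => ⟨hl.1, by
        have := hii σ hσ 1 (by rw [pow_one]; exact hσζ) l hl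
        rwa [one_smul] at this⟩)
      (fun x hx => hx.1) (T := Point.some x₁ y₁ h₁) ⟨hTtor, hσT⟩ hTV₁
    have hxH : x ∈ H := by rw [hHV]; exact hx
    exact hxH.2

end Leg

end Fermat.Agent.Delta
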