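/-
DELTA / (D5) PEU (helper4), part 6: **the determinant input (DET)**.

For an integral Weierstrass model `W` with `Δ ≠ 0` and a prime `p`: if `σ ∈ G_ℚ` acts on a line
`N ⊂ W[p]` through the scalar `k` and trivially on `W[p] / N`, then `σ ζ = ζ ^ k` for every `p`-th
root of unity `ζ` (`dlp_det_of_model`; from helper7's `s58d_det_cyclo`, i.e. Chebotarev + (ET)).
-/
import Mathlib
import Fermat.Agent.Lib.S58.Det
import Fermat.Agent.Lib.S58.ET

set_option autoImplicit false
set_option linter.unusedSectionVars false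
set_option linter.unusedVariables false
set_option linter.style.haveILetI false

open WeierstrassCurve WeierstrassCurve.Affine

namespace Fermat.Agent.Delta

open Fermat.Agent.S58

local notation "Qb" => AlgebraicClosure ℚ
local notation "GQ" => (AlgebraicClosure ℚ ≃ₐ[ℚ] AlgebraicClosure ℚ)

section LinAlg

variable {F V : Type*} [Field F] [AddCommGroup V] [Module F V] [FiniteDimensional F V]

/-- an endomorphism acting by the scalar `k` on a line `N` and trivially on `V / N` has
determinant `k` -/
theorem dlp_det_eq_of_line (f : V →ₗ[F] V) (N : Submodule F V) (hN : Module.finrank F N = 1)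
    (k : F) (hact : ∀ x ∈ N, f x = k • x) (hquot : ∀ x : V, f x - x ∈ N) :
    LinearMap.det f = k := by
  have he : N ≤ N.comap f := by
    intro x hx
    rw [Submodule.mem_comap, hact x hx]
    exact N.smul_mem k hx
  rw [LinearMap.det_eq_det_mul_det N f he]
  have h1 : f.restrict he = k • (LinearMap.id : N →ₗ[F] N) := by
    ext x
    simp only [LinearMap.coe_restrict_apply, LinearMap.smul_apply, LinearMap.id_coe, id_eq,
      Submodule.coe_smul]
    exact hact x x.2
  have h2 : N.mapQ N f he = LinearMap.id := by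
    apply LinearMap.ext
    intro x
    induction x using Submodule.Quotient.induction_on with
    | H x =>
      rw [Submodule.mapQ_apply, LinearMap.id_apply, Submodule.Quotient.eq]
      exact hquot x
  rw [h1, h2, LinearMap.det_smul, LinearMap.det_id, LinearMap.det_id, hN, pow_one, mul_one,
    mul_one]

end LinAlg

section Model

variable (W : WeierstrassCurve ℤ)

/-- **(DET)** for an integral model -/
theorem dlp_det_of_model (hΔ : W.Δ ≠ 0) {p : ℕ} (hp : p.Prime) (σ : GQ)
    (N : AddSubgroup ((s58E W)⁄Qb).Point) (k : ℕ) (hNcard : Nat.card N = p)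
    (hNtor : ∀ l ∈ N, p • l = 0) (hact : ∀ l ∈ N, σ • l = k • l)
    (hquot : ∀ x : ((s58E W)⁄Qb).Point, p • x = 0 → σ • x - x ∈ N)
    {ζ : Qb} (hζ : ζ ^ p = 1) : σ ζ = ζ ^ k := by
  haveI : Fact p.Prime := ⟨hp⟩
  haveI : NeZero p := ⟨hp.ne_zero⟩
  haveI : Finite (S58Tors W p) := s58d_finite_tors W hΔ hp.pos
  -- the line as a submodule
  let N' : Submodule (ZMod p) (S58Tors W p) :=
    { carrier := {x | (x : ((s58E W)⁄Qb).Point) ∈ N}
      zero_mem' := N.zero_mem
      add_mem' := fun hx hy => N.add_mem hx hy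
      smul_mem' := by
        intro c x hx
        have h1 : c • x = c.val • x := by
          conv_lhs => rw [← ZMod.natCast_zmod_val c]
          exact Nat.cast_smul_eq_nsmul (ZMod p) c.val x
        show ((c • x : S58Tors W p) : ((s58E W)⁄Qb).Point) ∈ N
        rw [h1]
        exact N.nsmul_mem hx c.val }
  have hmemN' : ∀ x : S58Tors W p, x ∈ N' ↔ (x : ((s58E W)⁄Qb).Point) ∈ N := fun x => Iff.rfl
  -- `N'` has `p` elements
  have hcardN' : Nat.card N' = p := by
    refine Eq.trans ?_ hNcard
    refine Nat.card_congr ⟨fun x => ⟨(x.1 : ((s58E W)⁄Qb).Point), x.2⟩,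
      fun l => ⟨⟨l.1, ?_⟩, l.2⟩, fun x => rfl, fun l => rfl⟩
    rw [Submodule.mem_torsionBy_iff, natCast_zsmul]
    exact hNtor l.1 l.2
  have hfr : Module.finrank (ZMod p) N' = 1 := by
    have h := Module.natCard_eq_pow_finrank (K := ZMod p) (V := N')
    rw [hcardN', Nat.card_zmod] at h
    have h1 : p ^ 1 = p ^ Module.finrank (ZMod p) N' := by rw [pow_one]; exact h
    exact (Nat.pow_right_injective hp.two_le h1).symm
  -- the determinant
  have hdet : LinearMap.det (s58Gal W p σ) = ((k : ℕ) : ZMod p) := by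
    refine dlp_det_eq_of_line (s58Gal W p σ) N' hfr (k : ZMod p) ?_ ?_
    · intro x hx
      apply Subtype.ext
      rw [Nat.cast_smul_eq_nsmul (ZMod p) k x]
      show σ • (x : ((s58E W)⁄Qb).Point) = k • (x : ((s58E W)⁄Qb).Point)
      exact hact _ hx
    · intro x
      rw [hmemN']
      show σ • (x : ((s58E W)⁄Qb).Point) - (x : ((s58E W)⁄Qb).Point) ∈ N
      apply hquot
      have := x.2
      rwa [Submodule.mem_torsionBy_iff, natCast_zsmul] at this
  exact s58d_det_cyclo W hΔ (s58_et W hΔ) hp (pow_one p).symm σ k hdet ζ hζ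

end Model

end Fermat.Agent.Delta
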