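/-
DELTA / (D5) PEU (helper4), part 7: **PEU for the Frey curve at `p ∣ abc`**.

`dlp_frey_peu`: for a Frey package with `p ∣ abc`, an integral model `W` of the Frey curve (only
used for the determinant input, via Chebotarev), a place `𝔓` of `ℚ̄` over `p` and a primitive
`p`-th root of unity `ζ`, the `p`-torsion `E[p]` of the Frey curve contains a line `L₁` such that
* inertia at `𝔓` acts trivially on `E[p] / L₁` and through the cyclotomic character on `L₁`;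
* there is a `𝔓`-unit `u`, fixed by the inertia of `K0(ζ)`, and a `p`-th root `w` of `u` such that
  every element of inertia fixing `ζ` and `w` fixes `E[p]` pointwise
  (`E[p]` is *peu ramifiée* at `p`).
The statement is packaged as `DlpPeu P.freyCurve 𝔓 P.p ζ`.
-/
import Mathlib
import Fermat.Agent.Lib.S13.Glue
import Fermat.Agent.Lib.S13.Torsion.Frey
import Fermat.Agent.Lib.Delta.Peu.Leg
import Fermat.Agent.Lib.Delta.Peu.Det

set_option autoImplicit false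
set_option linter.unusedSectionVars false
set_option linter.unusedVariables false
set_option linter.style.haveILetI false

open WeierstrassCurve WeierstrassCurve.Affine

namespace Fermat.Agent.Delta

open Fermat.Agent.S05Lib Fermat.Agent.S13Lib Fermat.Agent.TW Fermat.Agent.S58

local notation "Qb" => AlgebraicClosure ℚ
local notation "GQ" => (AlgebraicClosure ℚ ≃ₐ[ℚ] AlgebraicClosure ℚ)

/-- the conclusion of (D5): `E[p]` is an extension of (unramified) by (cyclotomic line) at `𝔓`,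
and is peu ramifiée -/
def DlpPeu (E : WeierstrassCurve ℚ) (𝔓 : FFPlace) (p : ℕ) (ζ : Qb) : Prop :=
  ∃ (L₁ : AddSubgroup (E.toAffine⁄Qb).Point) (u w : Qb),
    Nat.card L₁ = p ∧ (∀ l ∈ L₁, p • l = 0) ∧
    (∀ σ ∈ 𝔓.I, ∀ x : (E.toAffine⁄Qb).Point, p • x = 0 → σ • x - x ∈ L₁) ∧
    (∀ σ ∈ 𝔓.I, ∀ k : ℕ, σ ζ = ζ ^ k → ∀ l ∈ L₁, σ • l = k • l) ∧
    𝔓.v.Is u 0 ∧ (∀ σ ∈ 𝔓.I, σ ζ = ζ → σ u = u) ∧ w ^ p = u ∧
    (∀ σ ∈ 𝔓.I, σ ζ = ζ → σ w = w →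
      ∀ x : (E.toAffine⁄Qb).Point, p • x = 0 → σ • x = x)

/-- transport of `DlpPeu` along a Galois-equivariant isomorphism of the groups of points -/
theorem dlp_peu_transport {L E : WeierstrassCurve ℚ}
    (φ : (L.toAffine⁄Qb).Point ≃+ (E.toAffine⁄Qb).Point)
    (hφ : ∀ (σ : GQ) (Q : (L.toAffine⁄Qb).Point), φ (σ • Q) = σ • φ Q)
    {𝔓 : FFPlace} {p : ℕ} {ζ : Qb} (h : DlpPeu L 𝔓 p ζ) : DlpPeu E 𝔓 p ζ := by
  obtain ⟨L₁, u, w, h1, h2, h3, h4, h5, h6, h7, h8⟩ := h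
  have hsymm : ∀ (σ : GQ) (Q : (E.toAffine⁄Qb).Point), φ.symm (σ • Q) = σ • φ.symm Q := by
    intro σ Q
    apply φ.injective
    rw [hφ, φ.apply_symm_apply, φ.apply_symm_apply]
  have htor : ∀ x : (E.toAffine⁄Qb).Point, p • x = 0 → p • φ.symm x = 0 := by
    intro x hx
    rw [← map_nsmul, hx, _root_.map_zero]
  refine ⟨L₁.map φ.toAddMonoidHom, u, w, ?_, ?_, ?_, ?_, h5, h6, h7, ?_⟩
  · rw [← h1]
    exact Nat.card_congr (L₁.equivMapOfInjective φ.toAddMonoidHom φ.injective).symm.toEquiv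
  · rintro _ ⟨l, hl, rfl⟩
    show p • φ l = 0
    rw [← map_nsmul, h2 l hl, _root_.map_zero]
  · intro σ hσ x hx
    refine ⟨σ • φ.symm x - φ.symm x, h3 σ hσ _ (htor x hx), ?_⟩
    show φ (σ • φ.symm x - φ.symm x) = _
    rw [_root_.map_sub, hφ, φ.apply_symm_apply]
  · rintro σ hσ k hk _ ⟨l, hl, rfl⟩
    show σ • φ l = k • φ l
    rw [← hφ, h4 σ hσ k hk l hl, map_nsmul]
  · intro σ hσ hσζ hσw x hx
    have := h8 σ hσ hσζ hσw _ (htor x hx)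
    rw [← hsymm] at this
    exact φ.symm.injective this

/-- the determinant input, transported to any curve isomorphic to the generic fibre of an integral
model -/
theorem dlp_det_transport {L : WeierstrassCurve ℚ} (W : WeierstrassCurve ℤ) (hΔ : W.Δ ≠ 0)
    (φ : (L.toAffine⁄Qb).Point ≃+ ((s58E W).toAffine⁄Qb).Point)
    (hφ : ∀ (σ : GQ) (Q : (L.toAffine⁄Qb).Point), φ (σ • Q) = σ • φ Q)
    {p : ℕ} (hp : p.Prime) (σ : GQ)
    (N : AddSubgroup (L.toAffine⁄Qb).Point) (k : ℕ) (hNcard : Nat.card N = p)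
    (hNtor : ∀ l ∈ N, p • l = 0) (hact : ∀ l ∈ N, σ • l = k • l)
    (hquot : ∀ x : (L.toAffine⁄Qb).Point, p • x = 0 → σ • x - x ∈ N)
    {ζ : Qb} (hζ : ζ ^ p = 1) : σ ζ = ζ ^ k := by
  refine dlp_det_of_model W hΔ hp σ (N.map φ.toAddMonoidHom) k ?_ ?_ ?_ ?_ hζ
  · rw [← hNcard]
    exact Nat.card_congr (N.equivMapOfInjective φ.toAddMonoidHom φ.injective).symm.toEquiv
  · rintro _ ⟨l, hl, rfl⟩
    show p • φ l = 0
    rw [← map_nsmul, hNtor l hl, _root_.map_zero]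
  · rintro _ ⟨l, hl, rfl⟩
    show σ • φ l = k • φ l
    rw [← hφ, hact l hl, map_nsmul]
  · intro x hx
    have htor : p • φ.symm x = 0 := by rw [← map_nsmul, hx, _root_.map_zero]
    refine ⟨σ • φ.symm x - φ.symm x, hquot _ htor, ?_⟩
    show φ (σ • φ.symm x - φ.symm x) = _
    rw [_root_.map_sub, hφ, φ.apply_symm_apply]

/-- for `p ∣ abc` the Frey curve is a change of variables of a Legendre curve
`y² = x (x - ε ^ p) (x - r)` with `p ∣ ε`, `ε ≠ 0`, `p ∤ r` -/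
theorem dlp_frey_form_node (P : FreyPackage) (hpabc : (P.p : ℤ) ∣ P.a * P.b * P.c) :
    ∃ (ε r : ℤ) (ρ : ℚ), P.freyCurve = freyVC ρ • legQ (ε ^ P.p) r ∧
      (P.p : ℤ) ∣ ε ∧ ε ≠ 0 ∧ ¬ (P.p : ℤ) ∣ r := by
  have hqZ : Prime (P.p : ℤ) := Nat.prime_iff_prime_int.mp P.pp
  have hpow : ∀ {m : ℤ}, ¬ (P.p : ℤ) ∣ m → ¬ (P.p : ℤ) ∣ m ^ P.p := fun h h' =>
    h (hqZ.dvd_of_dvd_pow h')
  have hab : (P.p : ℤ) ∣ P.a → ¬ (P.p : ℤ) ∣ P.b := by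
    intro ha hb
    have := dvd_gcd ha hb
    rw [P.hgcdab] at this
    exact hqZ.not_isUnit (isUnit_of_dvd_one this)
  by_cases ha : (P.p : ℤ) ∣ P.a
  · exact ⟨P.a, -(P.b ^ P.p), 0, freyCurve_eq_ab P, ha, P.ha0, by
      rw [dvd_neg]; exact hpow (hab ha)⟩
  by_cases hb : (P.p : ℤ) ∣ P.b
  · exact ⟨-P.b, P.a ^ P.p, 0, freyCurve_eq_ba P, by rw [dvd_neg]; exact hb,
      neg_ne_zero.mpr P.hb0, hpow ha⟩
  have hc : (P.p : ℤ) ∣ P.c := by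
    rcases hqZ.dvd_mul.mp hpabc with h | h
    · rcases hqZ.dvd_mul.mp h with h | h
      · exact absurd h ha
      · exact absurd h hb
    · exact h
  exact ⟨-P.c, -(P.a ^ P.p), -((P.a : ℚ) ^ P.p), freyCurve_eq_c P, by rw [dvd_neg]; exact hc,
    neg_ne_zero.mpr P.hc0, by rw [dvd_neg]; exact hpow ha⟩

/-- the discriminant of a Legendre curve -/
lemma dlp_legQ_Δ (e r : ℤ) : (legQ e r).Δ = 16 * ((e : ℚ) * r * (e - r)) ^ 2 := by
  simp only [WeierstrassCurve.Δ, WeierstrassCurve.b₂, WeierstrassCurve.b₄, WeierstrassCurve.b₆,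
    WeierstrassCurve.b₈, legQ]
  ring

/-- **(D5): PEU for the Frey curve** -/
theorem dlp_frey_peu (P : FreyPackage) (hpabc : (P.p : ℤ) ∣ P.a * P.b * P.c)
    {W : WeierstrassCurve ℤ} (hWE : W.IsIntegralModelOf P.freyCurve)
    (𝔓 : FFPlace) (h𝔓 : 𝔓.p = P.p) {ζ : Qb} (hζ : IsPrimitiveRoot ζ P.p) :
    DlpPeu P.freyCurve 𝔓 P.p ζ := by
  obtain ⟨ε, r, ρ, hform, hε, hε0, hr⟩ := dlp_frey_form_node P hpabc
  have hp5 : 5 ≤ 𝔓.p := h𝔓 ▸ P.hp5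
  rw [← h𝔓] at hform hε hr hζ ⊢
  have hp := 𝔓.hp
  have hp2 : 𝔓.p ≠ 2 := by omega
  have hp0 : 𝔓.p ≠ 0 := hp.ne_zero
  have hqZ : Prime (𝔓.p : ℤ) := Nat.prime_iff_prime_int.mp hp
  have hv := dlp_qvalFor 𝔓
  -- arithmetic of `e = ε ^ p` and `r`
  have hr0 : r ≠ 0 := by
    rintro rfl
    exact hr (dvd_zero _)
  have he0 : ε ^ 𝔓.p ≠ 0 := pow_ne_zero _ hε0
  have her : ε ^ 𝔓.p ≠ r := by
    intro h
    exact hr (h ▸ dvd_pow hε hp0)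
  -- equivalences of groups of points
  obtain ⟨φ₁, hφ₁⟩ := exists_equivariant_equiv_of_eq (legQ (ε ^ 𝔓.p) r) P.freyCurve (freyVC ρ) hform
  obtain ⟨C, hC⟩ := hWE
  obtain ⟨φ₂, hφ₂⟩ := exists_equivariant_equiv_of_eq P.freyCurve (s58E W) C hC.symm
  -- the discriminant of the model
  have hΔ0 : W.Δ ≠ 0 := by
    intro h0
    have h1 : (W.map (Int.castRingHom ℚ)).Δ = 0 := by
      rw [WeierstrassCurve.map_Δ, h0, _root_.map_zero]
    rw [← hC, WeierstrassCurve.variableChange_Δ, hform, WeierstrassCurve.variableChange_Δ,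
      dlp_legQ_Δ] at h1
    have h2 : ((ε ^ 𝔓.p : ℤ) : ℚ) * r * (((ε ^ 𝔓.p : ℤ) : ℚ) - r) ≠ 0 := by
      refine mul_ne_zero (mul_ne_zero ?_ ?_) ?_
      · exact_mod_cast he0
      · exact_mod_cast hr0
      · rw [sub_ne_zero]; exact_mod_cast her
    rcases mul_eq_zero.mp h1 with h | h
    · exact (pow_ne_zero 12 (Units.ne_zero _)) h
    · rcases mul_eq_zero.mp h with h | h
      · exact (pow_ne_zero 12 (Units.ne_zero _)) h
      · rcases mul_eq_zero.mp h with h | h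
        · norm_num at h
        · exact h2 (pow_eq_zero_iff (two_ne_zero)|>.mp h)
  -- the valuations
  have hε0' : (ε : Qb) ≠ 0 := by exact_mod_cast hε0
  obtain ⟨h₀, hh₀⟩ := exists_ord_intCast hv hp 𝔓.is_p.2 hε0
  have hη : 0 < 𝔓.v.ord (ε : Qb) := (hv.gt_int hp hε).resolve_left hε0'
  have hh₀1 : 1 ≤ h₀ := by
    rw [hh₀] at hη
    have : 0 < h₀ := by exact_mod_cast hη
    omega
  have hεi : 𝔓.v.Is (ε : Qb) h₀ := hh₀ ▸ QVal.is_ord hε0'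
  have hri := hv.is_int hr
  have hei : 𝔓.v.Is ((ε ^ 𝔓.p : ℤ) : Qb) ((𝔓.p : ℚ) * h₀) := by
    have := hεi.pow 𝔓.p
    exact_mod_cast this
  have hh : 0 < (𝔓.p : ℚ) * h₀ := by
    have h1 : 0 < (𝔓.p : ℚ) := by exact_mod_cast hp.pos
    have h2 : 0 < (h₀ : ℚ) := by exact_mod_cast hh₀1
    positivity
  have ha : 𝔓.v.Is (-(((ε ^ 𝔓.p : ℤ) : Qb) + r)) 0 := (hri.add_gt' (hei.gt hh)).neg
  have hb : 𝔓.v.Is (((ε ^ 𝔓.p : ℤ) : Qb) * r) ((𝔓.p : ℚ) * h₀) :=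
    (hei.mul hri).congr (add_zero _)
  have hb0 : ((ε ^ 𝔓.p : ℤ) : Qb) * r ≠ 0 := hb.1
  have hab : (-(((ε ^ 𝔓.p : ℤ) : Qb) + r)) ^ 2 - 4 * (((ε ^ 𝔓.p : ℤ) : Qb) * r) ≠ 0 := by
    have h : (-(((ε ^ 𝔓.p : ℤ) : Qb) + r)) ^ 2 - 4 * (((ε ^ 𝔓.p : ℤ) : Qb) * r)
        = (((ε ^ 𝔓.p : ℤ) : Qb) - r) ^ 2 := by ring
    rw [h]
    apply pow_ne_zero
    rw [sub_ne_zero]
    exact_mod_cast her
  -- the torsion count
  have hcard : Nat.card (dlpTors (legQ (ε ^ 𝔓.p) r) 𝔓.p) = 𝔓.p ^ 2 := by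
    rw [← Torsion.natCard_torsionBy_legQ _ _ he0 hr0 her hp.pos, Torsion.natCard_torsionBy_eq]
    exact Nat.card_congr (Equiv.subtypeEquivRight fun x => Iff.rfl)
  -- (P1)
  have hP1 : ∀ σ ∈ 𝔓.I, ∀ x : ((legQ (ε ^ 𝔓.p) r).toAffine⁄Qb).Point, 𝔓.p • x = 0 →
      ∃ τ : ℚ, 0 < τ ∧ InE 𝔓.v τ (σ • x - x) := fun σ hσ x hx =>
    leg_map_sub_inE_node hv hp hp2 hσ hε hε0 hr hp0 x hx
  -- (DET)
  have hdet : ∀ σ ∈ 𝔓.I, ∀ (N : AddSubgroup ((legQ (ε ^ 𝔓.p) r).toAffine⁄Qb).Point) (k : ℕ),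
      Nat.card N = 𝔓.p → N ≤ dlpTors (legQ (ε ^ 𝔓.p) r) 𝔓.p → (∀ l ∈ N, σ • l = k • l) →
      (∀ x : ((legQ (ε ^ 𝔓.p) r).toAffine⁄Qb).Point, 𝔓.p • x = 0 → σ • x - x ∈ N) →
      σ ζ = ζ ^ k := by
    intro σ hσ N k hNcard hNle hact hquot
    refine dlp_det_transport W hΔ0 (φ₁.trans φ₂) ?_ hp σ N k hNcard (fun l hl => hNle hl) hact
      hquot hζ.pow_eq_one
    intro τ Q
    show φ₂ (φ₁ (τ • Q)) = τ • φ₂ (φ₁ Q)
    rw [hφ₁, hφ₂]
  exact dlp_peu_transport φ₁ hφ₁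
    (dlp_leg_peu 𝔓 hp2 (isLeg_legQ (ε ^ 𝔓.p) r) hb0 hab ha hh₀1 hb hcard hP1 hζ hdet)

end Fermat.Agent.Delta
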