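/-
DELTA / (D5) PEU (helper4), part 3: **depth bounds from the division polynomial** of
`y² = x³ + a x² + b x` (`a, b` integral, `p` odd, `ord p = 1`).

* `dlp_ge_preΨ'_eval_zero'` : `b² ∣ Ψ_n(0)` for odd `n ≥ 3` (in the form `ord Ψ_n(0) ≥ 2 ord b`);
* `dlp_exists_not_ker` : if `ord b ≥ 1`, some nonzero `p`-torsion point has integral abscissa
  (the `p`-torsion is not contained in the kernel of reduction);
* `dlp_sum_depth_neg_le` : `∑ (- ord x(T)) ≤ 2` over the nonzero `p`-torsion points in the kernel of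
  reduction.
-/
import Mathlib
import Fermat.Agent.Lib.S13.DivPoly.Roots
import Fermat.Agent.Lib.Delta.Peu.Sums

set_option autoImplicit false
set_option linter.unusedSectionVars false
set_option linter.unusedVariables false

open WeierstrassCurve WeierstrassCurve.Affine Polynomial

namespace Fermat.Agent.Delta

open Fermat.Agent.S05Lib Fermat.Agent.S13Lib

section PsiZero

variable {K : Type*} [Field K] {v : QVal K} {W : WeierstrassCurve K} {a b : K}

lemma dlp_Ψ₂Sq_eval_zero (hW : IsLeg W a b) : W.Ψ₂Sq.eval 0 = 0 := by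
  simp [WeierstrassCurve.Ψ₂Sq, WeierstrassCurve.b₆, hW.a₃, hW.a₆]

lemma dlp_Ψ₃_eval_zero (hW : IsLeg W a b) : W.Ψ₃.eval 0 = -b ^ 2 := by
  simp [WeierstrassCurve.Ψ₃, WeierstrassCurve.b₈, hW.a₁, hW.a₃, hW.a₄, hW.a₆]

/-- the value of a division polynomial at an integral point is integral -/
lemma dlp_ge_preΨ'_eval (hW : IsLeg W a b) (ha : v.Ge a 0) (hb : v.Ge b 0) (n : ℕ) {x₀ : K}
    (hx₀ : v.Ge x₀ 0) : v.Ge ((W.preΨ' n).eval x₀) 0 := by
  let W₀ : WeierstrassCurve (integerSubring v) := ⟨0, ⟨a, ha⟩, 0, ⟨b, hb⟩, 0⟩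
  have hmap : W = W₀.map (integerSubring v).subtype := by
    ext
    · simp [W₀, hW.a₁]
    · simp [W₀, hW.a₂]
    · simp [W₀, hW.a₃]
    · simp [W₀, hW.a₄]
    · simp [W₀, hW.a₆]
  rw [hmap, WeierstrassCurve.map_preΨ', eval_map]
  have := Polynomial.eval₂_at_apply (p := W₀.preΨ' n) (integerSubring v).subtype
    (⟨x₀, hx₀⟩ : integerSubring v)
  rw [show (integerSubring v).subtype ⟨x₀, hx₀⟩ = x₀ from rfl] at this
  rw [this]
  exact ((W₀.preΨ' n).eval (⟨x₀, hx₀⟩ : integerSubring v)).2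

/-- **`b² ∣ Ψ_n(0)`** for odd `n ≥ 3` -/
theorem dlp_ge_preΨ'_eval_zero' (hW : IsLeg W a b) (ha : v.Ge a 0) {h : ℚ} (hh : 0 ≤ h)
    (hb : v.Ge b h) : ∀ n : ℕ, Odd n → 3 ≤ n → v.Ge ((W.preΨ' n).eval 0) (2 * h) := by
  have hb0 : v.Ge b 0 := hb.mono hh
  have hint : ∀ k : ℕ, v.Ge ((W.preΨ' k).eval 0) 0 := fun k =>
    ge_preΨ'_eval_zero hW ha hb0 k
  intro n
  induction n using Nat.strong_induction_on with
  | _ n ih =>
    intro hn h3
    by_cases h3' : n = 3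
    · subst h3'
      rw [WeierstrassCurve.preΨ'_three, dlp_Ψ₃_eval_zero hW]
      exact (hb.sq).neg
    · -- `n = 2 (m + 2) + 1`
      obtain ⟨k, hk⟩ := hn
      obtain ⟨m, rfl⟩ : ∃ m, k = m + 2 := ⟨k - 2, by omega⟩
      subst hk
      rw [WeierstrassCurve.preΨ'_odd, eval_sub, eval_mul, eval_mul, eval_mul, eval_mul, eval_pow,
        eval_pow]
      have key : ∀ {A B : K}, v.Ge A 0 → v.Ge B (2 * h) → v.Ge (A * B ^ 3) (2 * h) := by
        intro A B hA hB
        have h1 : v.Ge (B ^ 3) (2 * h) := (hB.pow 3).mono (by push_cast; nlinarith)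
        have := hA.mul h1
        rwa [zero_add] at this
      by_cases hm : Even m
      · rw [if_pos hm, if_pos hm, eval_pow, dlp_Ψ₂Sq_eval_zero hW, eval_one]
        have hodd : Odd (m + 3) := by
          obtain ⟨j, hj⟩ := hm
          exact ⟨j + 1, by omega⟩
        have h1 := ih (m + 3) (by omega) hodd (by omega)
        have h2 := key (hint (m + 1)) h1
        have e : (W.preΨ' (m + 4)).eval 0 * (W.preΨ' (m + 2)).eval 0 ^ 3 * 0 ^ 2 -
            (W.preΨ' (m + 1)).eval 0 * (W.preΨ' (m + 3)).eval 0 ^ 3 * 1 =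
            -((W.preΨ' (m + 1)).eval 0 * (W.preΨ' (m + 3)).eval 0 ^ 3) := by ring
        rw [e]
        exact h2.neg
      · rw [if_neg hm, if_neg hm, eval_pow, dlp_Ψ₂Sq_eval_zero hW, eval_one]
        have hodd : Odd (m + 2) := by
          have := Nat.not_even_iff_odd.mp hm
          obtain ⟨j, hj⟩ := this
          exact ⟨j + 1, by omega⟩
        have h1 := ih (m + 2) (by omega) hodd (by
          obtain ⟨j, hj⟩ := hodd
          omega)
        have h2 := key (hint (m + 4)) h1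
        have e : (W.preΨ' (m + 4)).eval 0 * (W.preΨ' (m + 2)).eval 0 ^ 3 * 1 -
            (W.preΨ' (m + 1)).eval 0 * (W.preΨ' (m + 3)).eval 0 ^ 3 * 0 ^ 2 =
            (W.preΨ' (m + 4)).eval 0 * (W.preΨ' (m + 2)).eval 0 ^ 3 := by ring
        rw [e]
        exact h2

end PsiZero

section Depth

variable {K : Type*} [Field K] [DecidableEq K] [IsAlgClosed K] [CharZero K] {v : QVal K}
  {W : WeierstrassCurve K} {a b : K}

/-- the evaluation of the factorisation of `Ψ_p²` at a point `x₀` which is not an abscissa of a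
torsion point -/
lemma dlp_two_ord_preΨ'_eval (hW : IsLeg W a b) (hb0 : b ≠ 0) (hab : a ^ 2 - 4 * b ≠ 0) {p : ℕ}
    (hp : Odd p) (Vp : Finset W.toAffine.Point) (hVp : ∀ T, T ∈ Vp ↔ p • T = 0) {x₀ : K}
    (hx₀ : ∀ T ∈ Vp.erase 0, x₀ - xc T ≠ 0) :
    (W.preΨ' p).eval x₀ ≠ 0 ∧
      2 * v.ord ((W.preΨ' p).eval x₀) =
        2 * v.ord (p : K) + ∑ T ∈ Vp.erase 0, v.ord (x₀ - xc T) := by
  have hp0 : 0 < p := hp.pos
  have hpK : (p : K) ≠ 0 := Nat.cast_ne_zero.mpr hp0.ne'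
  have key := congrArg (eval x₀) (preΨ'_sq_eq_prod hW hb0 hab hp Vp hVp)
  rw [eval_pow, eval_mul, eval_C, eval_prod] at key
  simp only [eval_sub, eval_X, eval_C] at key
  have hprod0 : ∏ T ∈ Vp.erase 0, (x₀ - xc T) ≠ 0 := Finset.prod_ne_zero_iff.mpr hx₀
  have hΨ0 : (W.preΨ' p).eval x₀ ≠ 0 := by
    intro h0
    rw [h0, zero_pow two_ne_zero] at key
    exact (mul_ne_zero (pow_ne_zero 2 hpK) hprod0) key.symm
  refine ⟨hΨ0, ?_⟩
  have hord := congrArg v.ord key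
  rw [v.ord_pow hΨ0, v.ord_mul' (pow_ne_zero 2 hpK) hprod0, v.ord_pow hpK,
    dlp_ord_prod _ _ hx₀] at hord
  push_cast at hord
  exact hord

/-- **the `p`-torsion is not contained in the kernel of reduction** when `ord b ≥ 1` -/
theorem dlp_exists_not_ker (hW : IsLeg W a b) (hb0 : b ≠ 0) (hab : a ^ 2 - 4 * b ≠ 0)
    (ha : v.Ge a 0) {h : ℚ} (hh : 1 ≤ h) (hb : v.Ge b h) {p : ℕ} (hp : Odd p) (hp3 : 3 ≤ p)
    (hp1 : v.Is (p : K) 1) (Vp : Finset W.toAffine.Point) (hVp : ∀ T, T ∈ Vp ↔ p • T = 0) :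
    ∃ T ∈ Vp, T ≠ 0 ∧ v.Ge (xc T) 0 := by
  by_contra hcon
  push Not at hcon
  have hlt : ∀ T ∈ Vp.erase 0, v.Lt (xc T) 0 := by
    intro T hT
    have := hcon T (Finset.mem_of_mem_erase hT) (Finset.ne_of_mem_erase hT)
    rcases v.lt_or_ge (xc T) 0 with h | h
    · exact h
    · exact absurd h this
  have hx₀ : ∀ T ∈ Vp.erase 0, (0 : K) - xc T ≠ 0 := by
    intro T hT
    rw [zero_sub]
    exact neg_ne_zero.mpr (hlt T hT).1
  obtain ⟨hΨ0, hord⟩ := dlp_two_ord_preΨ'_eval (v := v) hW hb0 hab hp Vp hVp hx₀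
  have hge := (dlp_ge_preΨ'_eval_zero' hW ha (by linarith) hb p hp hp3).resolve_left hΨ0
  rw [hp1.2] at hord
  have hsum : ∑ T ∈ Vp.erase 0, v.ord ((0 : K) - xc T) ≤ 0 := by
    refine Finset.sum_nonpos fun T hT => ?_
    rw [zero_sub, v.ord_neg]
    exact (hlt T hT).2.le
  linarith

/-- **the depth bound on the kernel of reduction**: `∑ (- ord x(T)) ≤ 2` over the nonzero
`p`-torsion points with `ord x(T) < 0`. -/
theorem dlp_sum_depth_neg_le (hW : IsLeg W a b) (hb0 : b ≠ 0) (hab : a ^ 2 - 4 * b ≠ 0)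
    (ha : v.Ge a 0) (hb : v.Ge b 0) {p : ℕ} (hp : Odd p) (hp1 : v.Is (p : K) 1)
    (Vp : Finset W.toAffine.Point) (hVp : ∀ T, T ∈ Vp ↔ p • T = 0) :
    ∑ T ∈ (Vp.erase 0).filter (fun T => v.ord (xc T) < 0), (-(v.ord (xc T))) ≤ 2 := by
  classical
  set S := Vp.erase 0 with hS
  set Sp := S.filter (fun T => ¬ v.ord (xc T) < 0) with hSp
  set Sm := S.filter (fun T => v.ord (xc T) < 0) with hSm
  have hxne : ∀ T ∈ S, xc T ≠ 0 := by
    intro T hT
    exact xc_ne_zero_of_odd_torsion hW hp ((hVp T).mp (Finset.mem_of_mem_erase hT))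
      (Finset.ne_of_mem_erase hT)
  -- the auxiliary point
  set f : K[X] := X * ∏ T ∈ Sp, (X - C (xc T)) - 1 with hf
  have hmonic : (X * ∏ T ∈ Sp, (X - C (xc T)) : K[X]).Monic :=
    monic_X.mul (monic_prod_of_monic _ _ fun T _ => monic_X_sub_C (xc T))
  have hgd : 1 ≤ (X * ∏ T ∈ Sp, (X - C (xc T)) : K[X]).natDegree := by
    rw [Monic.natDegree_mul monic_X
      (monic_prod_of_monic _ _ fun T _ => monic_X_sub_C (xc T)), natDegree_X]
    omega
  have hdeg : f.degree ≠ 0 := by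
    have h1 : (1 : K[X]).degree < (X * ∏ T ∈ Sp, (X - C (xc T)) : K[X]).degree := by
      rw [degree_one, degree_eq_natDegree hmonic.ne_zero]
      exact_mod_cast hgd
    rw [hf, degree_sub_eq_left_of_degree_lt h1, degree_eq_natDegree hmonic.ne_zero]
    intro h0
    have h2 : (X * ∏ T ∈ Sp, (X - C (xc T)) : K[X]).natDegree = 0 := by exact_mod_cast h0
    omega
  obtain ⟨x₀, hroot⟩ := IsAlgClosed.exists_root f hdeg
  have hx₀eq : x₀ * ∏ T ∈ Sp, (x₀ - xc T) = 1 := by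
    have := hroot
    rw [IsRoot.def, hf, eval_sub, eval_mul, eval_X, eval_prod, eval_one] at this
    simp only [eval_sub, eval_X, eval_C] at this
    exact sub_eq_zero.mp this
  have hx₀0 : x₀ ≠ 0 := by
    intro h0
    rw [h0, zero_mul] at hx₀eq
    exact zero_ne_one hx₀eq
  have hfac0 : ∀ T ∈ Sp, x₀ - xc T ≠ 0 := by
    intro T hT h0
    have := Finset.prod_eq_zero (f := fun T => x₀ - xc T) hT h0
    rw [this, mul_zero] at hx₀eq
    exact zero_ne_one hx₀eq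
  have hSpge : ∀ T ∈ Sp, 0 ≤ v.ord (xc T) := by
    intro T hT
    exact not_lt.mp (Finset.mem_filter.mp hT).2
  -- `x₀` is integral
  have hx₀ge : 0 ≤ v.ord x₀ := by
    by_contra hcon
    push Not at hcon
    have h1 : ∀ T ∈ Sp, v.ord (x₀ - xc T) = v.ord x₀ := by
      intro T hT
      have hT' : v.Gt (xc T) (v.ord x₀) := Or.inr (lt_of_lt_of_le hcon (hSpge T hT))
      exact ((QVal.is_ord hx₀0).sub_gt hT').2
    have h2 := congrArg v.ord hx₀eq
    rw [v.ord_mul' hx₀0 (Finset.prod_ne_zero_iff.mpr hfac0), dlp_ord_prod _ _ hfac0, v.ord_one,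
      Finset.sum_congr rfl h1, Finset.sum_const, nsmul_eq_mul] at h2
    have h3 : (Sp.card : ℚ) * v.ord x₀ ≤ 0 :=
      mul_nonpos_of_nonneg_of_nonpos (Nat.cast_nonneg _) hcon.le
    linarith
  have hx₀Ge : v.Ge x₀ 0 := Or.inr hx₀ge
  -- all the factors are units
  have hfacge : ∀ T ∈ Sp, 0 ≤ v.ord (x₀ - xc T) := by
    intro T hT
    have : v.Ge (x₀ - xc T) 0 := hx₀Ge.sub (Or.inr (hSpge T hT))
    exact this.resolve_left (hfac0 T hT)
  have hfac : ∀ T ∈ Sp, v.ord (x₀ - xc T) = 0 := by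
    have h2 := congrArg v.ord hx₀eq
    rw [v.ord_mul' hx₀0 (Finset.prod_ne_zero_iff.mpr hfac0), dlp_ord_prod _ _ hfac0,
      v.ord_one] at h2
    have hsum0 : ∑ T ∈ Sp, v.ord (x₀ - xc T) = 0 := by
      have := Finset.sum_nonneg hfacge
      linarith
    exact (Finset.sum_eq_zero_iff_of_nonneg hfacge).mp hsum0
  have hfacm : ∀ T ∈ Sm, v.Is (x₀ - xc T) (v.ord (xc T)) := by
    intro T hT
    obtain ⟨hTS, hlt⟩ := Finset.mem_filter.mp hT
    have h1 : v.Is (xc T) (v.ord (xc T)) := QVal.is_ord (hxne T hTS)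
    have h2 : v.Gt x₀ (v.ord (xc T)) := Or.inr (lt_of_lt_of_le hlt hx₀ge)
    exact h1.sub_gt' h2
  have hall : ∀ T ∈ S, x₀ - xc T ≠ 0 := by
    intro T hT
    by_cases hlt : v.ord (xc T) < 0
    · exact (hfacm T (Finset.mem_filter.mpr ⟨hT, hlt⟩)).1
    · exact hfac0 T (Finset.mem_filter.mpr ⟨hT, hlt⟩)
  obtain ⟨hΨ0, hord⟩ := dlp_two_ord_preΨ'_eval (v := v) hW hb0 hab hp Vp hVp hall
  have hge := (dlp_ge_preΨ'_eval hW ha hb p hx₀Ge).resolve_left hΨ0
  rw [hp1.2, ← hS, ← Finset.sum_filter_add_sum_filter_not S (fun T => v.ord (xc T) < 0),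
    ← hSm, ← hSp, Finset.sum_congr rfl hfac, Finset.sum_const_zero, add_zero,
    Finset.sum_congr rfl (fun T hT => (hfacm T hT).2)] at hord
  rw [Finset.sum_neg_distrib]
  linarith

end Depth

end Fermat.Agent.Delta
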